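import Mathlib

/-!
# RIBET / W-ALGP, GLUE-p core, part 1: Artin–Schreier data (Mathlib-only)

`ASDatum p lam ϖ Γ Δ` : `Γ ∈ A[X]` monic of degree `p` with
`(1 + lam X)^p = 1 + lam^p Γ(X)` and `Γ = X^p - X + ϖ Δ`
(for `lam = ζ_p - 1`: `Γ = ((1 + lam X)^p - 1) / lam^p ≡ X^p - X` modulo `lam`).

For a field `Ω` over `A` with `lam ≠ 0`, a primitive `p`-th root of unity `ω` and `r ^ p = 1 +
lam^p τ`, the `p` elements `asRoot lam ω r k = (ω^k r - 1) / lam` are the roots of `Γ - τ`: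

* `ASDatum.map_sub_C_eq_nodal` : `Γ - τ = ∏ (X - w_k)`;
* `ASDatum.prod_erase_sub` : `∏_{j ≠ k} (w_k - w_j) = Γ'(w_k) = c₁ (ω^k r)^(p-1)`, `c₁ = Γ.coeff 1`;
* `ASDatum.asRoot_injOn`.
-/

set_option autoImplicit false
set_option linter.unusedSectionVars false
set_option linter.style.haveILetI false

open Polynomial

namespace Fermat.Agent.Ribet.H576

/-- An Artin–Schreier datum: `(1 + lam X)^p = 1 + lam^p Γ`, `Γ = X^p - X + ϖ Δ`. -/
structure ASDatum {A : Type*} [CommRing A] (p : ℕ) (lam ϖ : A) (Γ Δ : A[X]) : Prop where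
  two_le : 2 ≤ p
  monic : Γ.Monic
  natDegree_eq : Γ.natDegree = p
  pow_eq : (1 + C lam * X) ^ p = 1 + C (lam ^ p) * Γ
  eq_add : Γ = X ^ p - X + C ϖ * Δ

/-- the roots of `Γ - τ`. -/
noncomputable def asRoot {A Ω : Type*} [CommRing A] [Field Ω] [Algebra A Ω] (lam : A) (ω r : Ω)
    (k : ℕ) : Ω :=
  (algebraMap A Ω lam)⁻¹ * (ω ^ k * r - 1)

namespace ASDatum

variable {A : Type*} [CommRing A] {p : ℕ} {lam ϖ : A} {Γ Δ : A[X]}

section Alg

variable {S : Type*} [CommRing S] [Algebra A S]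

theorem pos (hD : ASDatum p lam ϖ Γ Δ) : 0 < p := lt_of_lt_of_le (by norm_num) hD.two_le

theorem aeval_pow_eq (hD : ASDatum p lam ϖ Γ Δ) (W : S) :
    (1 + algebraMap A S lam * W) ^ p = 1 + algebraMap A S lam ^ p * aeval W Γ := by
  have := congrArg (aeval W) hD.pow_eq
  simpa using this

theorem aeval_eq_add (hD : ASDatum p lam ϖ Γ Δ) (W : S) :
    aeval W Γ = W ^ p - W + algebraMap A S ϖ * aeval W Δ := by
  have := congrArg (aeval W) hD.eq_add
  simpa using this

theorem coeff_one (hD : ASDatum p lam ϖ Γ Δ) : Γ.coeff 1 = -1 + ϖ * Δ.coeff 1 := by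
  have h2 := hD.two_le
  have h := congrArg (fun P : A[X] => P.coeff 1) hD.eq_add
  simp only [coeff_add, coeff_sub, coeff_X_pow, coeff_X_one, coeff_C_mul] at h
  rw [h, if_neg (by omega)]
  ring

theorem derivative_eq (hD : ASDatum p lam ϖ Γ Δ) :
    C (lam ^ p) * derivative Γ = C ((p : A) * lam) * (1 + C lam * X) ^ (p - 1) := by
  have h := congrArg derivative hD.pow_eq
  rw [derivative_pow, derivative_add, derivative_add, derivative_one, derivative_mul,
    derivative_mul, derivative_C, derivative_C, derivative_X] at h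
  simp only [zero_mul, zero_add, mul_one] at h
  rw [← h]
  simp only [map_mul, map_natCast]
  ring

end Alg

section Field

variable {Ω : Type*} [Field Ω] [Algebra A Ω]

theorem aeval_derivative (hD : ASDatum p lam ϖ Γ Δ) (hlam : algebraMap A Ω lam ≠ 0) (w : Ω) :
    aeval w (derivative Γ) =
      algebraMap A Ω (Γ.coeff 1) * (1 + algebraMap A Ω lam * w) ^ (p - 1) := by
  have h := fun x : Ω => congrArg (aeval x) hD.derivative_eq
  simp only [map_mul, aeval_C, map_pow, map_add, map_one, aeval_X, map_natCast] at h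
  have h0 := h 0
  have hc : aeval (0 : Ω) (derivative Γ) = algebraMap A Ω (Γ.coeff 1) := by
    rw [← coeff_zero_eq_aeval_zero', coeff_derivative]
    simp
  rw [hc] at h0
  simp only [mul_zero, add_zero, one_pow, mul_one] at h0
  have hw := h w
  have hne : algebraMap A Ω lam ^ p ≠ 0 := pow_ne_zero _ hlam
  apply mul_left_cancel₀ hne
  rw [hw, ← mul_assoc, h0]

theorem aeval_zero (hD : ASDatum p lam ϖ Γ Δ) (hlam : algebraMap A Ω lam ≠ 0) :
    aeval (0 : Ω) Γ = 0 := by
  have h := hD.aeval_pow_eq (0 : Ω)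
  simp only [mul_zero, add_zero, one_pow] at h
  have hne : algebraMap A Ω lam ^ p ≠ 0 := pow_ne_zero _ hlam
  have : algebraMap A Ω lam ^ p * aeval (0 : Ω) Γ = 0 := by linear_combination -h
  rcases mul_eq_zero.1 this with h1 | h1
  · exact absurd h1 hne
  · exact h1

variable {ω r τ : Ω}

theorem one_add_mul_asRoot (hlam : algebraMap A Ω lam ≠ 0) (k : ℕ) :
    1 + algebraMap A Ω lam * asRoot lam ω r k = ω ^ k * r := by
  unfold asRoot
  rw [← mul_assoc, mul_inv_cancel₀ hlam, one_mul]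
  ring

theorem aeval_asRoot (hD : ASDatum p lam ϖ Γ Δ) (hlam : algebraMap A Ω lam ≠ 0)
    (hω : ω ^ p = 1) (hr : r ^ p = 1 + algebraMap A Ω lam ^ p * τ) (k : ℕ) :
    aeval (asRoot lam ω r k) Γ = τ := by
  have h := hD.aeval_pow_eq (asRoot lam ω r k)
  rw [one_add_mul_asRoot hlam, mul_pow, ← pow_mul, mul_comm k p, pow_mul, hω, one_pow, one_mul,
    hr] at h
  have hne : algebraMap A Ω lam ^ p ≠ 0 := pow_ne_zero _ hlam
  apply mul_left_cancel₀ hne
  linear_combination -h

theorem r_ne_zero (hD : ASDatum p lam ϖ Γ Δ)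
    (hr : r ^ p = 1 + algebraMap A Ω lam ^ p * τ) (hu : 1 + algebraMap A Ω lam ^ p * τ ≠ 0) :
    r ≠ 0 := by
  intro h
  rw [h, zero_pow hD.pos.ne'] at hr
  exact hu hr.symm

theorem asRoot_injOn (hlam : algebraMap A Ω lam ≠ 0)
    (hω : IsPrimitiveRoot ω p) (hr0 : r ≠ 0) :
    Set.InjOn (asRoot lam ω r) (Finset.range p : Finset ℕ) := by
  intro j hj k hk hjk
  simp only [Finset.coe_range, Set.mem_Iio] at hj hk
  unfold asRoot at hjk
  have h1 : ω ^ j * r - 1 = ω ^ k * r - 1 := mul_left_cancel₀ (inv_ne_zero hlam) hjk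
  have h2 : ω ^ j * r = ω ^ k * r := by linear_combination h1
  have h3 : ω ^ j = ω ^ k := mul_right_cancel₀ hr0 h2
  exact hω.pow_inj hj hk h3

/-- `Γ - τ = ∏ (X - w_k)`. -/
theorem map_sub_C_eq_nodal (hD : ASDatum p lam ϖ Γ Δ) (hlam : algebraMap A Ω lam ≠ 0)
    (hω : IsPrimitiveRoot ω p) (hr : r ^ p = 1 + algebraMap A Ω lam ^ p * τ) :
    Γ.map (algebraMap A Ω) - C τ = Lagrange.nodal (Finset.range p) (asRoot lam ω r) := by
  have h1 := X_pow_sub_C_eq_prod hω hD.pos hr
  have h2 := congrArg (fun P : Polynomial Ω => P.comp (1 + C (algebraMap A Ω lam) * X)) h1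
  simp only [sub_comp, pow_comp, X_comp, C_comp, prod_comp] at h2
  have h3 := congrArg (Polynomial.map (algebraMap A Ω)) hD.pow_eq
  simp only [Polynomial.map_pow, Polynomial.map_add, Polynomial.map_one, Polynomial.map_mul,
    map_C, map_X, map_pow] at h3
  rw [h3] at h2
  have h4 : ∀ i ∈ Finset.range p, (1 + C (algebraMap A Ω lam) * X - C (ω ^ i * r) : Polynomial Ω) =
      C (algebraMap A Ω lam) * (X - C (asRoot lam ω r i)) := by
    intro i _
    rw [← one_add_mul_asRoot (ω := ω) (r := r) hlam i]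
    simp only [map_add, map_one, map_mul]
    ring
  rw [Finset.prod_congr rfl h4, Finset.prod_mul_distrib, Finset.prod_const, Finset.card_range]
    at h2
  have hne : (C (algebraMap A Ω lam) ^ p : Polynomial Ω) ≠ 0 := by
    rw [← C_pow]
    exact C_ne_zero.2 (pow_ne_zero _ hlam)
  apply mul_left_cancel₀ hne
  rw [Lagrange.nodal, ← h2]
  simp only [map_add, map_one, map_mul, map_pow]
  ring

/-- `∏_{j ≠ k} (w_k - w_j) = Γ'(w_k) = c₁ (ω^k r)^(p-1)`. -/
theorem prod_erase_sub (hD : ASDatum p lam ϖ Γ Δ) (hlam : algebraMap A Ω lam ≠ 0)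
    (hω : IsPrimitiveRoot ω p) (hr : r ^ p = 1 + algebraMap A Ω lam ^ p * τ)
    {k : ℕ} (hk : k ∈ Finset.range p) :
    ∏ j ∈ (Finset.range p).erase k, (asRoot lam ω r k - asRoot lam ω r j) =
      algebraMap A Ω (Γ.coeff 1) * (ω ^ k * r) ^ (p - 1) := by
  rw [← Lagrange.eval_nodal, ← Lagrange.eval_nodal_derivative_eval_node_eq hk,
    ← hD.map_sub_C_eq_nodal hlam hω hr, derivative_sub, derivative_C, sub_zero,
    derivative_map, eval_map, ← aeval_def, hD.aeval_derivative hlam, one_add_mul_asRoot hlam]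

end Field

end ASDatum

end Fermat.Agent.Ribet.H576
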