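import Fermat.Agent.A2.H348.KummerCoord
import Fermat.Agent.Ribet.H576.ASPoly

/-!
# RIBET / W-ALGP, GLUE-p core, part 2: Artin–Schreier coordinates in a Kummer algebra

`F'` an `F`-algebra with a Kummer basis `ζ ^ p = ε = 1 + lam^p τ`.  With `W = (ζ - 1) / lam`
(`asW`), every `c ∈ F'` is `aeval W (asPoly c)` for a polynomial `asPoly c ∈ F[X]` of degree `< p`,
`F`-linear in `c`.  For a subalgebra `O ⊆ F`, integrally closed in `F`, with `τ, ε⁻¹, c₁⁻¹ ∈ O`
(`c₁ = Γ.coeff 1 = p / lam^(p-1)`):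

* `asPoly_coeff_mem_of_isIntegral` : `c` integral over `O` ⟹ the coefficients of `asPoly c` lie
  in `O` (Lagrange interpolation at the `p` roots of `Γ - τ`);
* `isIntegral_of_asPoly_coeff_mem` : conversely.
-/

set_option autoImplicit false
set_option linter.unusedSectionVars false
set_option linter.style.haveILetI false

open Polynomial

namespace Fermat.Agent.Ribet.H576

open Fermat.Agent.A2.H348

variable {A F : Type*} [CommRing A] [Field F] [Algebra A F]
variable {p : ℕ} {lam ϖ : A} {Γ Δ : A[X]}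

section General

variable {S : Type*} [CommRing S] [Algebra F S] [Algebra A S] [IsScalarTower A F S]

theorem algebraMap_subalgebra_comp (O : Subalgebra A F) :
    (algebraMap O S).comp (algebraMap A O) = algebraMap A S := by
  ext a
  show algebraMap F S (algebraMap A F a) = algebraMap A S a
  exact (IsScalarTower.algebraMap_apply A F S a).symm

/-- a solution of `Γ(W) = τ`, `τ ∈ O`, is integral over `O`. -/
theorem ASDatum.isIntegral_of_aeval_eq (hD : ASDatum p lam ϖ Γ Δ) (O : Subalgebra A F)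
    {W : S} {τ : F} (hτ : τ ∈ O) (h : aeval W Γ = algebraMap F S τ) : IsIntegral O W := by
  refine ⟨Γ.map (algebraMap A O) - C ⟨τ, hτ⟩, ?_, ?_⟩
  · refine (hD.monic.map _).sub_of_left ?_
    refine lt_of_le_of_lt degree_C_le ?_
    rw [degree_eq_natDegree (hD.monic.map _).ne_zero, hD.monic.natDegree_map, hD.natDegree_eq]
    exact_mod_cast hD.pos
  · rw [eval₂_sub, eval₂_map, algebraMap_subalgebra_comp, eval₂_C, ← aeval_def, h]
    exact sub_self _

/-- polynomial expressions (with coefficients in `O`) of an `O`-integral element are integral. -/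
theorem isIntegral_aeval_of_coeff_mem (O : Subalgebra A F) {W : S} (hW : IsIntegral O W)
    {P : F[X]} (hP : ∀ n, P.coeff n ∈ O) : IsIntegral O (aeval W P) := by
  rw [aeval_eq_sum_range]
  refine IsIntegral.sum _ fun n _ => ?_
  rw [Algebra.smul_def]
  exact (isIntegral_algebraMap_of_mem' O (hP n)).mul (hW.pow n)

end General

section Roots

variable {Ω : Type*} [Field Ω] [Algebra F Ω] [Algebra A Ω] [IsScalarTower A F Ω]

theorem isIntegral_coeff_nodal (O : Subalgebra A F) {ι : Type*} (t : Finset ι) (v : ι → Ω)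
    (hv : ∀ j ∈ t, IsIntegral O (v j)) (n : ℕ) : IsIntegral O ((Lagrange.nodal t v).coeff n) := by
  classical
  induction t using Finset.induction_on generalizing n with
  | empty =>
    rw [Lagrange.nodal_empty, coeff_one]
    split_ifs
    · exact isIntegral_one
    · exact isIntegral_zero
  | insert j t hj ih =>
    have hvt : ∀ i ∈ t, IsIntegral O (v i) := fun i hi => hv i (Finset.mem_insert_of_mem hi)
    have hvj : IsIntegral O (v j) := hv j (Finset.mem_insert_self _ _)
    rw [Lagrange.nodal_insert_eq_nodal hj, sub_mul, coeff_sub, coeff_C_mul]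
    refine IsIntegral.sub ?_ (hvj.mul (ih hvt n))
    cases n with
    | zero => rw [coeff_X_mul_zero]; exact isIntegral_zero
    | succ n => rw [coeff_X_mul]; exact ih hvt n

variable {ω r : Ω} {τ : F}

/-- the roots of `Γ - τ` are integral. -/
theorem ASDatum.isIntegral_asRoot (hD : ASDatum p lam ϖ Γ Δ) (O : Subalgebra A F)
    (hlam : algebraMap A F lam ≠ 0) (hτ : τ ∈ O)
    (hω : ω ^ p = 1) (hr : r ^ p = algebraMap F Ω (1 + algebraMap A F lam ^ p * τ)) (k : ℕ) :
    IsIntegral O (asRoot lam ω r k) := by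
  have hlamΩ : algebraMap A Ω lam ≠ 0 := by
    rw [IsScalarTower.algebraMap_apply A F Ω]
    exact (_root_.map_ne_zero _).2 hlam
  refine hD.isIntegral_of_aeval_eq O hτ ?_
  refine hD.aeval_asRoot hlamΩ hω ?_ k
  rw [hr, map_add, map_one, map_mul, map_pow, ← IsScalarTower.algebraMap_apply A F Ω]

theorem isIntegral_inv_root (O : Subalgebra A F) (hp : 0 < p) {ε : F} (hεinv : ε⁻¹ ∈ O)
    (hω : ω ^ p = 1) (hr : r ^ p = algebraMap F Ω ε) (k : ℕ) :
    IsIntegral O (ω ^ k * r)⁻¹ := by
  refine IsIntegral.of_pow hp ?_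
  rw [inv_pow, mul_pow, ← pow_mul, mul_comm k p, pow_mul, hω, one_pow, one_mul, hr, ← map_inv₀]
  exact isIntegral_algebraMap_of_mem' O hεinv

/-- differences of distinct roots of `Γ - τ` are units of the integral closure. -/
theorem ASDatum.isIntegral_inv_sub (hD : ASDatum p lam ϖ Γ Δ) (O : Subalgebra A F)
    (hlam : algebraMap A F lam ≠ 0) (hτ : τ ∈ O)
    (hε0 : 1 + algebraMap A F lam ^ p * τ ≠ 0)
    (hεinv : (1 + algebraMap A F lam ^ p * τ)⁻¹ ∈ O)
    (hc₁ : (algebraMap A F (Γ.coeff 1))⁻¹ ∈ O)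
    (hω : IsPrimitiveRoot ω p) (hr : r ^ p = algebraMap F Ω (1 + algebraMap A F lam ^ p * τ))
    {j k : ℕ} (hj : j ∈ Finset.range p) (hk : k ∈ Finset.range p) (hjk : j ≠ k) :
    IsIntegral O (asRoot lam ω r k - asRoot lam ω r j)⁻¹ := by
  classical
  have hlamΩ : algebraMap A Ω lam ≠ 0 := by
    rw [IsScalarTower.algebraMap_apply A F Ω]
    exact (_root_.map_ne_zero _).2 hlam
  have hr' : r ^ p = 1 + algebraMap A Ω lam ^ p * algebraMap F Ω τ := by
    rw [hr, map_add, map_one, map_mul, map_pow, ← IsScalarTower.algebraMap_apply A F Ω]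
  have hr0 : r ≠ 0 := by
    intro h
    rw [h, zero_pow hD.pos.ne'] at hr
    exact hε0 ((map_eq_zero (algebraMap F Ω)).1 hr.symm)
  have hinj := ASDatum.asRoot_injOn (lam := lam) hlamΩ hω hr0
  have hne : ∀ i ∈ Finset.range p, i ≠ k → asRoot lam ω r k - asRoot lam ω r i ≠ 0 := by
    intro i hi hik h
    exact hik (hinj hi hk (sub_eq_zero.1 h).symm)
  have hprod := hD.prod_erase_sub hlamΩ hω hr' hk
  have hjmem : j ∈ (Finset.range p).erase k := Finset.mem_erase.2 ⟨hjk, hj⟩
  rw [← Finset.mul_prod_erase _ _ hjmem] at hprod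
  set D : Ω := asRoot lam ω r k - asRoot lam ω r j with hDdef
  set Pr : Ω := ∏ i ∈ ((Finset.range p).erase k).erase j,
    (asRoot lam ω r k - asRoot lam ω r i) with hPr
  have hD0 : D ≠ 0 := hne j hj hjk
  have hPr0 : Pr ≠ 0 := by
    rw [hPr, Finset.prod_ne_zero_iff]
    intro i hi
    have hi' := Finset.mem_of_mem_erase hi
    exact hne i (Finset.mem_of_mem_erase hi') (Finset.ne_of_mem_erase hi')
  have hR0 : algebraMap A Ω (Γ.coeff 1) * (ω ^ k * r) ^ (p - 1) ≠ 0 := by
    rw [← hprod]; exact mul_ne_zero hD0 hPr0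
  have hc0 : algebraMap A Ω (Γ.coeff 1) ≠ 0 := left_ne_zero_of_mul hR0
  have hy0 : (ω ^ k * r) ^ (p - 1) ≠ 0 := right_ne_zero_of_mul hR0
  have hinv : D⁻¹ = Pr * ((algebraMap F Ω (algebraMap A F (Γ.coeff 1))⁻¹) *
      ((ω ^ k * r)⁻¹) ^ (p - 1)) := by
    rw [map_inv₀, ← IsScalarTower.algebraMap_apply A F Ω, inv_pow, ← mul_inv, ← hprod]
    field_simp
  rw [hinv]
  have hwint : ∀ i, IsIntegral O (asRoot lam ω r i) := fun i =>
    hD.isIntegral_asRoot O hlam hτ hω.pow_eq_one hr i
  refine IsIntegral.mul ?_ (IsIntegral.mul (isIntegral_algebraMap_of_mem' O hc₁) ?_)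
  · exact IsIntegral.prod _ fun i _ => (hwint k).sub (hwint i)
  · exact (isIntegral_inv_root O hD.pos hεinv hω.pow_eq_one hr k).pow _

/-- **Lagrange integrality**: a polynomial of degree `< p` over `F` whose values at the `p` roots
of `Γ - τ` are integral over `O` has coefficients in `O`. -/
theorem ASDatum.coeff_mem_of_isIntegral_aeval (hD : ASDatum p lam ϖ Γ Δ) (O : Subalgebra A F)
    (hO : ∀ f : F, IsIntegral O f → f ∈ O)
    (hlam : algebraMap A F lam ≠ 0) (hτ : τ ∈ O)
    (hε0 : 1 + algebraMap A F lam ^ p * τ ≠ 0)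
    (hεinv : (1 + algebraMap A F lam ^ p * τ)⁻¹ ∈ O)
    (hc₁ : (algebraMap A F (Γ.coeff 1))⁻¹ ∈ O)
    (hω : IsPrimitiveRoot ω p) (hr : r ^ p = algebraMap F Ω (1 + algebraMap A F lam ^ p * τ))
    {P : F[X]} (hP : P.degree < p)
    (hval : ∀ k ∈ Finset.range p, IsIntegral O (aeval (asRoot lam ω r k) P)) (n : ℕ) :
    P.coeff n ∈ O := by
  classical
  have hlamΩ : algebraMap A Ω lam ≠ 0 := by
    rw [IsScalarTower.algebraMap_apply A F Ω]
    exact (_root_.map_ne_zero _).2 hlam
  have hr0 : r ≠ 0 := by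
    intro h
    rw [h, zero_pow hD.pos.ne'] at hr
    exact hε0 ((map_eq_zero (algebraMap F Ω)).1 hr.symm)
  have hinj := ASDatum.asRoot_injOn (lam := lam) hlamΩ hω hr0
  have hwint : ∀ i, IsIntegral O (asRoot lam ω r i) := fun i =>
    hD.isIntegral_asRoot O hlam hτ hω.pow_eq_one hr i
  have hdeg : (P.map (algebraMap F Ω)).degree < (Finset.range p).card := by
    rw [degree_map, Finset.card_range]; exact hP
  have hint := Lagrange.eq_interpolate hinj hdeg
  have hcoeff : (P.map (algebraMap F Ω)).coeff n =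
      ∑ k ∈ Finset.range p, aeval (asRoot lam ω r k) P *
        (Lagrange.nodalWeight (Finset.range p) (asRoot lam ω r) k *
          (Lagrange.nodal ((Finset.range p).erase k) (asRoot lam ω r)).coeff n) := by
    conv_lhs => rw [hint]
    rw [Lagrange.interpolate_apply, finsetSum_coeff]
    refine Finset.sum_congr rfl fun k hk => ?_
    rw [Lagrange.basis_eq_prod_sub_inv_mul_nodal_div hk, ← Lagrange.nodal_erase_eq_nodal_div hk,
      coeff_C_mul, coeff_C_mul, eval_map, ← aeval_def]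
  have hI : IsIntegral O ((P.map (algebraMap F Ω)).coeff n) := by
    rw [hcoeff]
    refine IsIntegral.sum _ fun k hk => (hval k hk).mul (IsIntegral.mul ?_ ?_)
    · unfold Lagrange.nodalWeight
      refine IsIntegral.prod _ fun j hj => ?_
      exact hD.isIntegral_inv_sub O hlam hτ hε0 hεinv hc₁ hω hr
        (Finset.mem_of_mem_erase hj) hk (Finset.ne_of_mem_erase hj)
    · exact isIntegral_coeff_nodal O _ _ (fun j _ => hwint j) n
  rw [coeff_map] at hI
  exact hO _ ((isIntegral_algebraMap_iff (algebraMap F Ω).injective).1 hI)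

end Roots

section Coord

variable {F' : Type*} [CommRing F'] [Nontrivial F'] [Algebra F F'] [Algebra A F']
  [IsScalarTower A F F']
variable {ε : F} {ζ : F'}

variable (F) in
/-- the Artin–Schreier coordinate `W = (ζ - 1) / lam`. -/
noncomputable def asW (lam : A) (ζ : F') : F' :=
  algebraMap F F' (algebraMap A F lam)⁻¹ * (ζ - 1)

omit [Nontrivial F'] in
theorem one_add_mul_asW (hlam : algebraMap A F lam ≠ 0) (ζ : F') :
    1 + algebraMap A F' lam * asW F lam ζ = ζ := by
  unfold asW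
  rw [IsScalarTower.algebraMap_apply A F F', ← mul_assoc, ← map_mul, mul_inv_cancel₀ hlam,
    map_one, one_mul]
  ring

omit [Nontrivial F'] in
/-- `Γ(W) = τ` if `ζ ^ p = 1 + lam^p τ`. -/
theorem ASDatum.aeval_asW (hD : ASDatum p lam ϖ Γ Δ) (hlam : algebraMap A F lam ≠ 0)
    {τ : F} (hζ : ζ ^ p = algebraMap F F' (1 + algebraMap A F lam ^ p * τ)) :
    aeval (asW F lam ζ) Γ = algebraMap F F' τ := by
  have h := hD.aeval_pow_eq (asW F lam ζ)
  rw [one_add_mul_asW hlam, hζ, map_add, map_one, map_mul, map_pow,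
    ← IsScalarTower.algebraMap_apply A F F'] at h
  have hu : algebraMap F F' ((algebraMap A F lam)⁻¹ ^ p) * algebraMap A F' lam ^ p = 1 := by
    rw [IsScalarTower.algebraMap_apply A F F', ← map_pow, ← map_mul, ← mul_pow,
      inv_mul_cancel₀ hlam, one_pow, map_one]
  have h2 : algebraMap A F' lam ^ p * (aeval (asW F lam ζ) Γ - algebraMap F F' τ) = 0 := by
    linear_combination -h
  have h3 := congrArg (fun t => algebraMap F F' ((algebraMap A F lam)⁻¹ ^ p) * t) h2
  simp only [mul_zero] at h3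
  rw [← mul_assoc, hu, one_mul] at h3
  exact sub_eq_zero.1 h3

/-- polynomial coordinates of `c ∈ F'` with respect to `W = (ζ - 1) / lam`. -/
noncomputable def asPoly (kb : KummerBasis p ε ζ) (lam : A) (c : F') : F[X] :=
  ∑ i : Fin p, C (kb.basis.repr c i) * (1 + C (algebraMap A F lam) * X) ^ (i : ℕ)

theorem aeval_asPoly (kb : KummerBasis p ε ζ) (hlam : algebraMap A F lam ≠ 0) (c : F') :
    aeval (asW F lam ζ) (asPoly kb lam c) = c := by
  unfold asPoly
  rw [map_sum]
  conv_rhs => rw [kb.sum_repr c]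
  refine Finset.sum_congr rfl fun i _ => ?_
  rw [map_mul, map_pow, map_add, map_one, map_mul, aeval_C, aeval_C, aeval_X,
    ← IsScalarTower.algebraMap_apply A F F', one_add_mul_asW hlam]

theorem degree_asPoly_lt (kb : KummerBasis p ε ζ) (c : F') :
    (asPoly kb lam c).degree < p := by
  have hlin : (1 + C (algebraMap A F lam) * X : F[X]).natDegree ≤ 1 := by
    refine natDegree_add_le_of_degree_le (by simp) ?_
    exact (natDegree_C_mul_le _ _).trans natDegree_X_le
  have h : (asPoly kb lam c).natDegree ≤ p - 1 := by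
    unfold asPoly
    refine natDegree_sum_le_of_forall_le _ _ fun i _ => ?_
    refine (natDegree_C_mul_le _ _).trans ((natDegree_pow_le).trans ?_)
    have := i.2
    calc (i : ℕ) * (1 + C (algebraMap A F lam) * X : F[X]).natDegree ≤ (i : ℕ) * 1 :=
          Nat.mul_le_mul_left _ hlin
      _ ≤ p - 1 := by omega
  have hp := kb.m_pos
  refine lt_of_le_of_lt degree_le_natDegree ?_
  exact_mod_cast (by omega : (asPoly kb lam c).natDegree < p)

theorem asPoly_mul (kb : KummerBasis p ε ζ) (a : F) (c : F') :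
    asPoly kb lam (algebraMap F F' a * c) = C a * asPoly kb lam c := by
  unfold asPoly
  rw [Finset.mul_sum]
  refine Finset.sum_congr rfl fun i _ => ?_
  rw [← Algebra.smul_def, map_smul, Finsupp.smul_apply, smul_eq_mul, C_mul, mul_assoc]

section Eval

variable {Ω : Type*} [Field Ω] [Algebra F Ω] [Algebra A Ω] [IsScalarTower A F Ω]

theorem evalAt_eq_aeval_asRoot (kb : KummerBasis p ε ζ) (hlam : algebraMap A F lam ≠ 0)
    (ω r : Ω) (k : ℕ) (hy : (ω ^ k * r) ^ p = algebraMap F Ω ε) (c : F') :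
    kb.evalAt (ω ^ k * r) hy c = aeval (asRoot lam ω r k) (asPoly kb lam c) := by
  conv_lhs => rw [← aeval_asPoly kb hlam c]
  rw [← aeval_algHom_apply]
  congr 1
  unfold asW asRoot
  rw [map_mul, map_sub, map_one, kb.evalAt_zeta, AlgHom.commutes, map_inv₀,
    ← IsScalarTower.algebraMap_apply A F Ω]

end Eval

/-- **Key lemma, main direction.** -/
theorem ASDatum.asPoly_coeff_mem_of_isIntegral (hD : ASDatum p lam ϖ Γ Δ)
    (kb : KummerBasis p ε ζ) (O : Subalgebra A F) (hO : ∀ f : F, IsIntegral O f → f ∈ O)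
    (hlam : algebraMap A F lam ≠ 0) (hp : (p : F) ≠ 0) {τ : F}
    (hε : ε = 1 + algebraMap A F lam ^ p * τ) (hτ : τ ∈ O) (hε0 : ε ≠ 0) (hεinv : ε⁻¹ ∈ O)
    (hc₁ : (algebraMap A F (Γ.coeff 1))⁻¹ ∈ O) {c : F'} (hc : IsIntegral O c) (n : ℕ) :
    (asPoly kb lam c).coeff n ∈ O := by
  classical
  haveI : NeZero (p : F) := ⟨hp⟩
  set Ω := AlgebraicClosure F with hΩ
  obtain ⟨ω, hω⟩ := HasEnoughRootsOfUnity.exists_primitiveRoot Ω p
  obtain ⟨r, hr⟩ := IsAlgClosed.exists_pow_nat_eq (algebraMap F Ω ε) kb.m_pos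
  subst hε
  refine hD.coeff_mem_of_isIntegral_aeval O hO hlam hτ hε0 hεinv hc₁ hω hr
    (degree_asPoly_lt kb c) (fun k _ => ?_) n
  rw [← evalAt_eq_aeval_asRoot kb hlam ω r k (KummerBasis.mul_pow_eq hω hr k)]
  exact kb.isIntegral_evalAt O _ _ hc

/-- **Key lemma, easy direction.** -/
theorem ASDatum.isIntegral_of_asPoly_coeff_mem (hD : ASDatum p lam ϖ Γ Δ)
    (kb : KummerBasis p ε ζ) (O : Subalgebra A F)
    (hlam : algebraMap A F lam ≠ 0) {τ : F}
    (hε : ε = 1 + algebraMap A F lam ^ p * τ) (hτ : τ ∈ O) {c : F'}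
    (h : ∀ n, (asPoly kb lam c).coeff n ∈ O) : IsIntegral O c := by
  rw [← aeval_asPoly kb hlam c]
  refine isIntegral_aeval_of_coeff_mem O ?_ h
  refine hD.isIntegral_of_aeval_eq O hτ (hD.aeval_asW hlam ?_)
  rw [kb.pow_eq, hε]

/-- the coordinate `W` is integral. -/
theorem ASDatum.isIntegral_asW (hD : ASDatum p lam ϖ Γ Δ)
    (kb : KummerBasis p ε ζ) (O : Subalgebra A F)
    (hlam : algebraMap A F lam ≠ 0) {τ : F}
    (hε : ε = 1 + algebraMap A F lam ^ p * τ) (hτ : τ ∈ O) : IsIntegral O (asW F lam ζ) := by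
  refine hD.isIntegral_of_aeval_eq O hτ (hD.aeval_asW hlam ?_)
  rw [kb.pow_eq, hε]

end Coord

end Fermat.Agent.Ribet.H576
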