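import Fermat.Agent.Ribet.H576.ASPoly

/-!
# RIBET / W-ALGP, GLUE-p core: the Artin–Schreier datum of `lam = ζ_p - 1` (Mathlib-only)

`exists_asDatum` : `R` a domain, `ζ ∈ R` a primitive `p`-th root of unity (`p` prime), `w ∈ R` a
prime element dividing `p` and `ζ - 1`.  Then
`Γ = ∏_{k < p} (X - g_k)`, `g_k = (ζ^k - 1)/(ζ - 1) = 1 + ζ + … + ζ^(k-1)`, satisfies
`(1 + lam X)^p = 1 + lam^p Γ` and `Γ ≡ ∏_{k < p} (X - k) = X^p - X` modulo `w`.
-/

set_option autoImplicit false
set_option linter.unusedSectionVars false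
set_option linter.style.haveILetI false

open Polynomial

namespace Fermat.Agent.Ribet.H576

/-- in a domain of characteristic `p`: `∏_{k < p} (X - k) = X^p - X`. -/
theorem nodal_natCast_eq (K : Type*) [CommRing K] [IsDomain K] (p : ℕ) (hp : p.Prime)
    [CharP K p] :
    Lagrange.nodal (Finset.range p) (fun k : ℕ => (k : K)) = X ^ p - X := by
  haveI : Fact p.Prime := ⟨hp⟩
  have hdegX : (X : K[X]).degree < ((p : ℕ) : WithBot ℕ) := by
    rw [degree_X]
    exact_mod_cast hp.one_lt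
  have hmon : (X ^ p - X : K[X]).Monic := monic_X_pow_sub hdegX
  have hdeg : (X ^ p - X : K[X]).degree = p := by
    rw [degree_sub_eq_left_of_degree_lt (by rw [degree_X_pow]; exact hdegX), degree_X_pow]
  refine Polynomial.eq_of_degree_le_of_eval_index_eq (v := fun k : ℕ => (k : K))
    (Finset.range p) ?_ ?_ ?_ ?_ ?_
  · intro j hj k hk hjk
    rw [Finset.coe_range] at hj hk
    exact CharP.natCast_injOn_Iio K p hj hk hjk
  · rw [Lagrange.degree_nodal]
  · rw [Lagrange.degree_nodal, Finset.card_range, hdeg]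
  · rw [Lagrange.nodal_monic.leadingCoeff, hmon.leadingCoeff]
  · intro k hk
    rw [Lagrange.eval_nodal_at_node hk, eval_sub, eval_pow, eval_X, ← frobenius_def,
      map_natCast, sub_self]

/-- **The Artin–Schreier datum of `lam = ζ - 1`.** -/
theorem exists_asDatum {R : Type*} [CommRing R] [IsDomain R] {p : ℕ} (hp : p.Prime) {ζ w : R}
    (hζ : IsPrimitiveRoot ζ p) (hw : Prime w) (hwp : w ∣ (p : R)) (hwζ : w ∣ ζ - 1) :
    ∃ Γ Δ : R[X], ASDatum p (ζ - 1) w Γ Δ := by
  classical
  set g : ℕ → R := fun k => ∑ i ∈ Finset.range k, ζ ^ i with hg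
  have hgk : ∀ k, (ζ - 1) * g k = ζ ^ k - 1 := fun k => mul_geom_sum ζ k
  set Γ : R[X] := Lagrange.nodal (Finset.range p) g with hΓ
  -- the power identity
  have hpow : (1 + C (ζ - 1) * X) ^ p = 1 + C ((ζ - 1) ^ p) * Γ := by
    have h1 := X_pow_sub_C_eq_prod hζ hp.pos (one_pow p)
    have h2 := congrArg (fun P : R[X] => P.comp (1 + C (ζ - 1) * X)) h1
    simp only [sub_comp, pow_comp, X_comp, C_comp, prod_comp] at h2
    have h4 : ∀ i ∈ Finset.range p, (1 + C (ζ - 1) * X - C (ζ ^ i * 1) : R[X]) =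
        C (ζ - 1) * (X - C (g i)) := by
      intro i _
      have : ζ ^ i * 1 = 1 + (ζ - 1) * g i := by rw [hgk]; ring
      rw [this]
      simp only [map_add, map_one, map_mul]
      ring
    rw [Finset.prod_congr rfl h4, Finset.prod_mul_distrib, Finset.prod_const, Finset.card_range]
      at h2
    rw [hΓ, Lagrange.nodal, C_pow, ← h2]
    simp
  -- the congruence modulo `w`
  have hcong : ∃ Δ : R[X], Γ = X ^ p - X + C w * Δ := by
    set I : Ideal R := Ideal.span {w} with hI
    haveI : I.IsPrime := (Ideal.span_singleton_prime hw.ne_zero).2 hw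
    have hpI : (Ideal.Quotient.mk I) (p : R) = 0 :=
      Ideal.Quotient.eq_zero_iff_mem.2 (Ideal.mem_span_singleton.2 hwp)
    haveI : CharP (R ⧸ I) p := (CharP.charP_iff_prime_eq_zero hp).2 (by
      rw [← map_natCast (Ideal.Quotient.mk I)]; exact hpI)
    have hζI : (Ideal.Quotient.mk I) ζ = 1 := by
      have : (Ideal.Quotient.mk I) (ζ - 1) = 0 :=
        Ideal.Quotient.eq_zero_iff_mem.2 (Ideal.mem_span_singleton.2 hwζ)
      rw [map_sub, map_one, sub_eq_zero] at this
      exact this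
    have hgI : ∀ k, (Ideal.Quotient.mk I) (g k) = (k : R ⧸ I) := by
      intro k
      simp [hg, hζI]
    have hmap : Γ.map (Ideal.Quotient.mk I) = X ^ p - X := by
      rw [hΓ, Lagrange.nodal, Polynomial.map_prod, ← nodal_natCast_eq (R ⧸ I) p hp,
        Lagrange.nodal]
      refine Finset.prod_congr rfl fun k _ => ?_
      rw [Polynomial.map_sub, map_X, map_C, hgI]
    have hdvd : C w ∣ Γ - (X ^ p - X) := by
      rw [C_dvd_iff_dvd_coeff]
      intro n
      rw [← Ideal.mem_span_singleton, ← Ideal.Quotient.eq_zero_iff_mem, ← coeff_map,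
        Polynomial.map_sub, hmap]
      simp
    obtain ⟨Δ, hΔ⟩ := hdvd
    exact ⟨Δ, by rw [← hΔ]; ring⟩
  obtain ⟨Δ, hΔ⟩ := hcong
  refine ⟨Γ, Δ, hp.two_le, Lagrange.nodal_monic, ?_, hpow, hΔ⟩
  rw [hΓ, Lagrange.natDegree_nodal, Finset.card_range]

end Fermat.Agent.Ribet.H576
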