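import Fermat.Agent.Ribet.H576.ASGlue

/-!
# RIBET / W-ALGP, GLUE-p core, part 4: from the Artin–Schreier idempotent to a `p`-th root

Wild analogue of `A2/H348/Root.lean`.

* `ASGaussData.mem_range_of_mul` (**rigidity**): a root `w` of `Γ - (u - 1)/lam^p` which is `ϖ`
  times a `V`-integral element lies in `F`.
* `exists_root_of_connected_as` (**GLUE-p, abstract final form**).
-/

set_option autoImplicit false
set_option linter.unusedSectionVars false
set_option linter.style.haveILetI false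

open Polynomial

namespace Fermat.Agent.Ribet.H576

open Fermat.Agent.A2.H348

variable {A F : Type*} [CommRing A] [Field F] [Algebra A F]

section Rigid

variable {ϖ lam : A} {p : ℕ} {u : F} {V : Subalgebra A F} {Γ Δ : A[X]}
variable {Ω : Type*} [Field Ω] [Algebra F Ω] [Algebra A Ω] [IsScalarTower A F Ω]

/-- a product of elements `≡ 1` modulo `ϖ` is `≡ 1` modulo `ϖ`. -/
theorem prod_one_sub_mul (O : Subalgebra A F) {ι : Type*} (s : Finset ι) (c : Ω) (σ : ι → Ω)
    (hc : IsIntegral O c) (hσ : ∀ i ∈ s, IsIntegral O (σ i)) :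
    ∃ ρ : Ω, IsIntegral O ρ ∧ ∏ i ∈ s, (1 - c * σ i) = 1 - c * ρ := by
  classical
  induction s using Finset.induction_on with
  | empty => exact ⟨0, isIntegral_zero, by simp⟩
  | insert j t hj ih =>
    obtain ⟨ρ, hρ, h⟩ := ih fun i hi => hσ i (Finset.mem_insert_of_mem hi)
    have hj' := hσ j (Finset.mem_insert_self _ _)
    refine ⟨σ j + ρ - c * (σ j * ρ), (hj'.add hρ).sub (hc.mul (hj'.mul hρ)), ?_⟩
    rw [Finset.prod_insert hj, h]
    ring

/-- **Rigidity.**  A root `w` of `Γ - (u - 1)/lam^p` with `w ∈ ϖ · (V-integral elements)` lies in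
`F`. -/
theorem ASGaussData.mem_range_of_mul (hV : ASGaussData ϖ lam p u V) (hD : ASDatum p lam ϖ Γ Δ)
    [IsAlgClosed Ω] {ω r : Ω} (hω : IsPrimitiveRoot ω p) (hr : r ^ p = algebraMap F Ω u)
    {k : ℕ} (hk : k ∈ Finset.range p) {τ : Ω} (hτ : IsIntegral V τ)
    (h : asRoot lam ω r k = algebraMap F Ω (algebraMap A F ϖ) * τ) :
    asRoot lam ω r k ∈ Set.range (algebraMap F Ω) := by
  classical
  obtain ⟨t₀, ht₀, hu⟩ := hV.u_one
  set τ₀ : F := algebraMap A F ϖ * t₀ with hτ₀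
  have hτ₀V : τ₀ ∈ V := V.mul_mem (V.algebraMap_mem ϖ) ht₀
  have hlam := hV.lam_ne
  have hlamΩ : algebraMap A Ω lam ≠ 0 := by
    rw [IsScalarTower.algebraMap_apply A F Ω]
    exact (_root_.map_ne_zero _).2 hlam
  have hϖ0 : algebraMap A F ϖ ≠ 0 := hV.ϖ_ne
  have hu0 : (1 + algebraMap A F lam ^ p * τ₀) ≠ 0 := by rw [← hu]; exact hV.u_ne
  have huinv : (1 + algebraMap A F lam ^ p * τ₀)⁻¹ ∈ V := by rw [← hu]; exact hV.u_inv_mem
  have hr1 : r ^ p = algebraMap F Ω (1 + algebraMap A F lam ^ p * τ₀) := by rw [hr, hu]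
  have hr' : r ^ p = 1 + algebraMap A Ω lam ^ p * algebraMap F Ω τ₀ := by
    rw [hr1, map_add, map_one, map_mul, map_pow, ← IsScalarTower.algebraMap_apply A F Ω]
  have hr0 : r ≠ 0 := by
    intro h0
    rw [h0, zero_pow hD.pos.ne'] at hr
    exact hV.u_ne ((map_eq_zero (algebraMap F Ω)).1 hr.symm)
  have hinj := ASDatum.asRoot_injOn (lam := lam) hlamΩ hω hr0
  set w : Ω := asRoot lam ω r k with hw
  set G₀ : F[X] := Γ.map (algebraMap A F) - C τ₀ with hG₀
  have hG₀map : G₀.map (algebraMap F Ω) =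
      Lagrange.nodal (Finset.range p) (asRoot lam ω r) := by
    rw [hG₀, Polynomial.map_sub, map_map, map_C, ← IsScalarTower.algebraMap_eq A F Ω]
    exact hD.map_sub_C_eq_nodal hlamΩ hω hr'
  have hG₀monic : G₀.Monic := by
    refine (hD.monic.map _).sub_of_left ?_
    refine lt_of_le_of_lt degree_C_le ?_
    rw [degree_eq_natDegree (hD.monic.map _).ne_zero, hD.monic.natDegree_map, hD.natDegree_eq]
    exact_mod_cast hD.pos
  have hroot : ∀ y : Ω, aeval y G₀ = 0 → ∃ j ∈ Finset.range p, y = asRoot lam ω r j := by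
    intro y hy
    rw [aeval_def, ← eval_map, hG₀map, Lagrange.eval_nodal, Finset.prod_eq_zero_iff] at hy
    obtain ⟨j, hj, hj0⟩ := hy
    exact ⟨j, hj, sub_eq_zero.1 hj0⟩
  have hwG₀ : aeval w G₀ = 0 := by
    rw [aeval_def, ← eval_map, hG₀map]
    exact Lagrange.eval_nodal_at_node (v := asRoot lam ω r) hk
  have hwint : IsIntegral F w := ⟨G₀, hG₀monic, hwG₀⟩
  by_contra hnot
  have hdeg : 2 ≤ (minpoly F w).natDegree := (minpoly.two_le_natDegree_iff hwint).2 hnot
  set P := minpoly F w with hP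
  have hdvd : P ∣ G₀ := minpoly.dvd F w hwG₀
  have hsepG : (G₀.map (algebraMap F Ω)).Separable := by
    rw [hG₀map, Lagrange.nodal]
    exact separable_prod_X_sub_C_iff'.2 fun x hx y hy hxy =>
      hinj (Finset.mem_coe.2 hx) (Finset.mem_coe.2 hy) hxy
  have hsep : (P.map (algebraMap F Ω)).Separable :=
    hsepG.of_dvd (Polynomial.map_dvd _ hdvd)
  have hnodup := nodup_roots hsep
  have hcard : (P.map (algebraMap F Ω)).roots.card = P.natDegree := by
    rw [IsAlgClosed.card_roots_eq_natDegree, natDegree_map]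
  -- another root
  obtain ⟨w₁, hw₁mem, hw₁ne⟩ : ∃ w₁ ∈ (P.map (algebraMap F Ω)).roots, w₁ ≠ w := by
    by_contra hcon
    simp only [not_exists, not_and, not_not] at hcon
    have hsub : (P.map (algebraMap F Ω)).roots ≤ {w} := by
      rw [Multiset.le_iff_subset hnodup]
      intro y hy'
      rw [Multiset.mem_singleton]
      exact hcon y hy'
    have := Multiset.card_le_card hsub
    rw [hcard, Multiset.card_singleton] at this
    omega
  have hPne : P.map (algebraMap F Ω) ≠ 0 :=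
    map_monic_ne_zero (minpoly.monic hwint)
  have hw₁P : aeval w₁ P = 0 := by
    have := (mem_roots hPne).1 hw₁mem
    rwa [IsRoot.def, eval_map, ← aeval_def] at this
  have haeval_of_dvd : ∀ G : F[X], aeval w G = 0 → aeval w₁ G = 0 := by
    intro G hG
    obtain ⟨Q, hQ⟩ := minpoly.dvd F w hG
    rw [hQ, map_mul, hw₁P, zero_mul]
  obtain ⟨j, hj, hw₁j⟩ := hroot w₁ (haeval_of_dvd G₀ hwG₀)
  have hjk : j ≠ k := by
    rintro rfl
    exact hw₁ne hw₁j
  -- transport of integrality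
  obtain ⟨Q₀, hQ₀m, hQ₀⟩ := hτ
  set ϖ' : F := algebraMap A F ϖ with hϖ'
  set G : F[X] := (Q₀.map (algebraMap V F)).comp (C ϖ'⁻¹ * X) with hG
  have hGeval : ∀ y : Ω, aeval y G =
      eval₂ (algebraMap V Ω) (algebraMap F Ω ϖ'⁻¹ * y) Q₀ := by
    intro y
    rw [hG, aeval_comp, aeval_def, eval₂_map]
    have : (algebraMap F Ω).comp (algebraMap V F) = algebraMap V Ω := by
      ext a; rfl
    rw [this]
    simp
  have hτeq : algebraMap F Ω ϖ'⁻¹ * w = τ := by
    rw [h, ← mul_assoc, ← map_mul, inv_mul_cancel₀ hϖ0, map_one, one_mul]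
  have hG0 : aeval w G = 0 := by rw [hGeval, hτeq]; exact hQ₀
  have hG1 := haeval_of_dvd G hG0
  rw [hGeval] at hG1
  set τ₁ : Ω := algebraMap F Ω ϖ'⁻¹ * w₁ with hτ₁
  have hτ₁int : IsIntegral V τ₁ := ⟨Q₀, hQ₀m, hG1⟩
  have hτint : IsIntegral V τ := ⟨Q₀, hQ₀m, hQ₀⟩
  have h1 : w₁ = algebraMap F Ω ϖ' * τ₁ := by
    rw [hτ₁, ← mul_assoc, ← map_mul, mul_inv_cancel₀ hϖ0, map_one, one_mul]
  -- the difference of the two roots is a unit
  have hinvint : IsIntegral V (w - w₁)⁻¹ := by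
    rw [hw₁j]
    exact hD.isIntegral_inv_sub V hlam hτ₀V hu0 huinv (hV.c₁_inv_mem hD) hω hr1 hj hk hjk
  have hdiff : w - w₁ = algebraMap F Ω ϖ' * (τ - τ₁) := by
    rw [mul_sub, ← h1, ← h]
  have hne : w - w₁ ≠ 0 := sub_ne_zero.2 (Ne.symm hw₁ne)
  have hT : IsIntegral V ((τ - τ₁) * (w - w₁)⁻¹) := (hτint.sub hτ₁int).mul hinvint
  have hmT : algebraMap F Ω ϖ'⁻¹ = (τ - τ₁) * (w - w₁)⁻¹ := by
    have hϖΩ : algebraMap F Ω ϖ' ≠ 0 := (_root_.map_ne_zero _).2 hϖ0
    rw [map_inv₀, eq_mul_inv_iff_mul_eq₀ hne, hdiff]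
    field_simp
  rw [← hmT] at hT
  exact hV.ϖ_inv_notMem
    (hV.closed _ ((isIntegral_algebraMap_iff (algebraMap F Ω).injective).1 hT))

end Rigid

section Main

variable {F' : Type*} [CommRing F'] [Nontrivial F'] [Algebra F F'] [Algebra A F']
  [IsScalarTower A F F']
variable {ϖ lam : A} {p : ℕ} {u : F} {Bfin Binf Bmid V : Subalgebra A F} {Γ Δ : A[X]}

/-- **GLUE-p, abstract final form.**  On a two-chart model `(Bfin, Binf, Bmid = Bfin[1/x])` with
semilocal Gauss ring `V` and reduced special fibre, let `u ∈ 1 + lam^p ϖ V` admit local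
factorisations `u = ε h ^ p` (`ε ∈ 1 + lam^p ϖ B_𝔪`, `h ∈ 1 + lam ϖ V`) at every closed point of
the special fibre of both charts.  If the special fibres of the normalisations of the model in the
residue fields of the Kummer algebra `F' = F[z]/(z ^ p - u)` are connected (`ConnAt`), then `u` is
the `p`-th power of an element of `F` which is `≡ 1` modulo `lam ϖ V`. -/
theorem exists_root_of_connected_as (hD : ASDatum p lam ϖ Γ Δ) (hV : ASGaussData ϖ lam p u V)
    (hfin : ASChartData ϖ lam p u Bfin V) (hinf : ASChartData ϖ lam p u Binf V)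
    (hfm : Bfin ≤ Bmid) (him : Binf ≤ Bmid)
    (x : Bfin) (hx0 : (x : F) ≠ 0) (hxinv : ((x : F))⁻¹ ∈ Bmid)
    (hloc : ∀ f ∈ Bmid, ∃ K : ℕ, (x : F) ^ K * f ∈ Bfin)
    {z : F'} (kb : KummerBasis p u z)
    (hconn : ∀ 𝔫 : Ideal F', 𝔫.IsMaximal → ConnAt ϖ Bfin Binf Bmid (F' ⧸ 𝔫)) :
    ∃ y : F, y ^ p = u ∧
      ∃ t ∈ V, y = 1 + algebraMap A F lam * (algebraMap A F ϖ * t) := by
  classical
  obtain ⟨e₁, e₂, c₁, he₁, he₂, hc₁, hE, hi1, hi2, h12⟩ :=
    exists_as_lifts hD hV hfin hinf hfm him x hx0 hxinv hloc kb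
  have hp0 : (p : F) ≠ 0 := hV.p_ne
  haveI : NeZero (p : F) := ⟨hp0⟩
  have hppos : 0 < p := kb.m_pos
  have h2 := hD.two_le
  have hϖ0 : algebraMap A F ϖ ≠ 0 := hV.ϖ_ne
  have hlam := hV.lam_ne
  set Ω := AlgebraicClosure F with hΩ
  have hlamΩ : algebraMap A Ω lam ≠ 0 := by
    rw [IsScalarTower.algebraMap_apply A F Ω]
    exact (_root_.map_ne_zero _).2 hlam
  obtain ⟨ω, hω⟩ := HasEnoughRootsOfUnity.exists_primitiveRoot Ω p
  obtain ⟨r, hr⟩ := IsAlgClosed.exists_pow_nat_eq (algebraMap F Ω u) hppos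
  haveI := kb.finiteDimensional
  haveI : IsArtinianRing F' := IsArtinianRing.of_finite F F'
  -- the evaluations
  set ev : ℕ → (F' →ₐ[F] Ω) :=
    fun k => kb.evalAt (ω ^ k * r) (KummerBasis.mul_pow_eq hω hr k) with hev
  set ϖ' : F := algebraMap A F ϖ with hϖ'
  have hϖF' : algebraMap A F' ϖ = algebraMap F F' ϖ' := algebraMap_eq_comp F ϖ
  have hϖΩ : algebraMap A Ω ϖ = algebraMap F Ω ϖ' := IsScalarTower.algebraMap_apply A F Ω ϖ
  -- the alternative at each evaluation
  have key : ∀ k : ℕ, (∃ τ : Ω, IsIntegral Bfin τ ∧ ev k e₁ = algebraMap F Ω ϖ' * τ) ∨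
      (∃ τ : Ω, IsIntegral Bfin τ ∧ 1 - ev k e₁ = algebraMap F Ω ϖ' * τ) := by
    intro k
    set 𝔫 : Ideal F' := RingHom.ker (ev k : F' →+* Ω) with h𝔫
    haveI : 𝔫.IsPrime := RingHom.ker_isPrime _
    haveI : 𝔫.IsMaximal := inferInstance
    set π : F' →ₐ[F] F' ⧸ 𝔫 := Ideal.Quotient.mkₐ F 𝔫 with hπ
    set ι : F' ⧸ 𝔫 →ₐ[F] Ω := Ideal.Quotient.liftₐ 𝔫 (ev k) (fun a ha => ha) with hι
    have hιπ : ∀ a, ι (π a) = ev k a := fun a => rfl
    have hrel : ∀ a t : F', a = algebraMap A F' ϖ * t →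
        π a = algebraMap F (F' ⧸ 𝔫) ϖ' * π t := by
      intro a t h
      rw [h, hϖF', map_mul, AlgHom.commutes]
    have hc := hconn 𝔫 inferInstance (π e₁) (π e₂) (isIntegral_map_algHom Bfin π he₁)
      (isIntegral_map_algHom Binf π he₂)
      (by
        obtain ⟨t, ht, h⟩ := hi1
        refine ⟨π t, isIntegral_map_algHom Bfin π ht, ?_⟩
        rw [← hrel _ t h, map_sub, map_pow])
      (by
        obtain ⟨t, ht, h⟩ := hi2
        refine ⟨π t, isIntegral_map_algHom Binf π ht, ?_⟩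
        rw [← hrel _ t h, map_sub, map_pow])
      (by
        obtain ⟨t, ht, h⟩ := h12
        refine ⟨π t, isIntegral_map_algHom Bmid π ht, ?_⟩
        rw [← hrel _ t h, map_sub])
    rcases hc with ⟨t, ht, h⟩ | ⟨t, ht, h⟩
    · left
      refine ⟨ι t, isIntegral_map_algHom Bfin ι ht, ?_⟩
      have := congrArg ι h
      rw [hιπ, map_mul, AlgHom.commutes] at this
      exact this
    · right
      refine ⟨ι t, isIntegral_map_algHom Bfin ι ht, ?_⟩
      have := congrArg ι h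
      rw [map_sub, map_one, hιπ, map_mul, AlgHom.commutes] at this
      exact this
  -- evaluation of `W` and `E`
  have hevW : ∀ k, ev k (asW F lam z) = asRoot lam ω r k := by
    intro k
    unfold asW asRoot
    rw [map_mul, map_sub, map_one, AlgHom.commutes, map_inv₀,
      ← IsScalarTower.algebraMap_apply A F Ω]
    congr 2
    exact kb.evalAt_zeta _ _
  have hevE : ∀ k, ev k (asE F lam p z) = 1 - asRoot lam ω r k ^ (p - 1) := by
    intro k
    unfold asE
    rw [map_sub, map_one, map_pow, hevW]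
  have hevE' : ∀ k, ev k (asE F lam p z) = ev k e₁ + algebraMap F Ω ϖ' * ev k c₁ := by
    intro k
    rw [hE, map_add, map_mul, hϖF', AlgHom.commutes]
  obtain ⟨t₀, ht₀, hu⟩ := hV.u_one
  have hr' : r ^ p = 1 + algebraMap A Ω lam ^ p * algebraMap F Ω (ϖ' * t₀) := by
    rw [hr, hu, map_add, map_one, map_mul, map_pow, ← IsScalarTower.algebraMap_apply A F Ω]
  have hr1 : r ^ p = algebraMap F Ω (1 + algebraMap A F lam ^ p * (ϖ' * t₀)) := by rw [hr, hu]
  have hτ₀V : ϖ' * t₀ ∈ V := V.mul_mem (V.algebraMap_mem ϖ) ht₀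
  have hwΓ : ∀ k, aeval (asRoot lam ω r k) Γ = algebraMap F Ω (ϖ' * t₀) := fun k =>
    hD.aeval_asRoot hlamΩ hω.pow_eq_one hr' k
  have hwint : ∀ k, IsIntegral V (asRoot lam ω r k) := fun k =>
    hD.isIntegral_asRoot V hlam hτ₀V hω.pow_eq_one hr1 k
  have hϖint : IsIntegral V (algebraMap F Ω ϖ') :=
    isIntegral_algebraMap_of_mem' V (V.algebraMap_mem ϖ)
  by_cases hB : ∃ k ∈ Finset.range p, ∃ τ : Ω, IsIntegral Bfin τ ∧
      1 - ev k e₁ = algebraMap F Ω ϖ' * τ
  · -- rigidity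
    obtain ⟨k, hk, τ, hτ, hkτ⟩ := hB
    obtain ⟨w, hw⟩ : ∃ w : Ω, w = asRoot lam ω r k := ⟨_, rfl⟩
    have h1 : w ^ (p - 1) = algebraMap F Ω ϖ' * (τ - ev k c₁) := by
      have e1 := hevE k
      rw [hevE' k, ← hw] at e1
      linear_combination hkτ + e1
    have hadd := hD.aeval_eq_add w
    have hwΓk := hwΓ k
    rw [← hw] at hwΓk
    rw [hwΓk, hϖΩ, map_mul] at hadd
    have hpow : w ^ p = w * w ^ (p - 1) := by
      rw [← pow_succ']; congr 1; omega
    set τ' : Ω := w * (τ - ev k c₁) + aeval w Δ - algebraMap F Ω t₀ with hτ'def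
    have hwτ : w = algebraMap F Ω ϖ' * τ' := by
      rw [hpow, h1] at hadd
      rw [hτ'def]
      linear_combination hadd
    have hwintk : IsIntegral V w := by rw [hw]; exact hwint k
    have hΔint : IsIntegral V (aeval w Δ) := by
      rw [aeval_eq_sum_range]
      refine IsIntegral.sum _ fun n _ => ?_
      rw [Algebra.smul_def, IsScalarTower.algebraMap_apply A F Ω]
      exact (isIntegral_algebraMap_of_mem' V (V.algebraMap_mem _)).mul (hwintk.pow n)
    have hτ'int : IsIntegral V τ' := by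
      refine IsIntegral.sub (IsIntegral.add (hwintk.mul ?_) hΔint)
        (isIntegral_algebraMap_of_mem' V ht₀)
      exact (isIntegral_of_le hfin.le_V hτ).sub (isIntegral_map_algHom V (ev k) hc₁)
    rw [hw] at hwτ
    obtain ⟨y₀, hy₀⟩ := hV.mem_range_of_mul hD hω hr hk hτ'int hwτ
    rw [← hw] at hwτ hy₀
    have hinj := (algebraMap F Ω).injective
    refine ⟨1 + algebraMap A F lam * y₀, ?_, y₀ * ϖ'⁻¹, ?_, ?_⟩
    · apply hinj
      rw [map_pow, map_add, map_one, map_mul, hy₀, ← IsScalarTower.algebraMap_apply A F Ω,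
        hw, ASDatum.one_add_mul_asRoot hlamΩ k]
      exact KummerBasis.mul_pow_eq hω hr k
    · apply hV.closed
      rw [← isIntegral_algebraMap_iff (B := Ω) hinj]
      have : algebraMap F Ω (y₀ * ϖ'⁻¹) = τ' := by
        have hϖΩ0 : algebraMap F Ω ϖ' ≠ 0 := (_root_.map_ne_zero _).2 hϖ0
        apply mul_left_cancel₀ hϖΩ0
        rw [← hwτ, ← map_mul, mul_comm y₀, ← mul_assoc, mul_inv_cancel₀ hϖ0, one_mul, hy₀]
      rw [this]
      exact hτ'int
    · rw [mul_comm y₀ ϖ'⁻¹, ← mul_assoc ϖ', mul_inv_cancel₀ hϖ0, one_mul]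
  · -- impossible: all evaluations of `e₁` vanish modulo `ϖ`
    exfalso
    have hA : ∀ k ∈ Finset.range p, ∃ σ : Ω, IsIntegral V σ ∧
        1 - algebraMap F Ω ϖ' * σ = asRoot lam ω r k ^ (p - 1) := by
      intro k hk
      obtain ⟨τ, hτ, hkτ⟩ := (key k).resolve_right fun h => hB ⟨k, hk, h⟩
      refine ⟨τ + ev k c₁,
        (isIntegral_of_le hfin.le_V hτ).add (isIntegral_map_algHom V (ev k) hc₁), ?_⟩
      have e1 := hevE k
      rw [hevE' k, hkτ] at e1
      linear_combination -e1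
    choose! σ hσint hσ using hA
    obtain ⟨ρ, hρ, hprod⟩ := prod_one_sub_mul V (Finset.range p) (algebraMap F Ω ϖ') σ hϖint
      hσint
    rw [Finset.prod_congr rfl hσ, Finset.prod_pow] at hprod
    -- the product of the roots
    have hnodal := hD.map_sub_C_eq_nodal hlamΩ hω hr'
    have h0 := congrArg (eval 0) hnodal
    rw [eval_sub, eval_C, eval_map, ← aeval_def, hD.aeval_zero hlamΩ, Lagrange.eval_nodal]
      at h0
    have hneg : ∏ i ∈ Finset.range p, (0 - asRoot lam ω r i) =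
        (-1) ^ p * ∏ i ∈ Finset.range p, asRoot lam ω r i := by
      rw [← Finset.card_range p, ← Finset.prod_const, Finset.card_range,
        ← Finset.prod_mul_distrib]
      refine Finset.prod_congr rfl fun i _ => ?_
      ring
    rw [hneg] at h0
    have hsq : ((-1 : Ω) ^ p) * ((-1) ^ p) = 1 := by
      rw [← mul_pow]; norm_num
    have hprodw : ∏ i ∈ Finset.range p, asRoot lam ω r i =
        algebraMap F Ω ϖ' * ((-1) ^ p * (-algebraMap F Ω t₀)) := by
      rw [map_mul] at h0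
      linear_combination (-1 : Ω) ^ p * (-h0) -
        (∏ i ∈ Finset.range p, asRoot lam ω r i) * hsq
    rw [hprodw] at hprod
    have hpp : p - 1 = (p - 2) + 1 := by omega
    set a : Ω := (-1) ^ p * (-algebraMap F Ω t₀) with ha
    have haint : IsIntegral V a :=
      ((isIntegral_one.neg).pow p).mul (isIntegral_algebraMap_of_mem' V ht₀).neg
    set η : Ω := ρ + algebraMap F Ω ϖ' ^ (p - 2) * a ^ (p - 1) with hη
    have hηint : IsIntegral V η := hρ.add ((hϖint.pow _).mul (haint.pow _))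
    have hone : algebraMap F Ω ϖ' * η = 1 := by
      have e : (algebraMap F Ω ϖ' * a) ^ (p - 1) =
          algebraMap F Ω ϖ' * (algebraMap F Ω ϖ' ^ (p - 2) * a ^ (p - 1)) := by
        have e' : algebraMap F Ω ϖ' ^ (p - 1) = algebraMap F Ω ϖ' ^ (p - 2) * algebraMap F Ω ϖ' := by
          rw [← pow_succ]; congr 1
        rw [mul_pow, e']
        ring
      rw [e] at hprod
      rw [hη]
      linear_combination hprod
    have hinv : algebraMap F Ω ϖ'⁻¹ = η := by
      rw [map_inv₀]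
      exact inv_eq_of_mul_eq_one_right hone
    rw [← hinv] at hηint
    exact hV.ϖ_inv_notMem
      (hV.closed _ ((isIntegral_algebraMap_iff (algebraMap F Ω).injective).1 hηint))

end Main

end Fermat.Agent.Ribet.H576
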