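import Fermat.Agent.A2.H348.Final
import Fermat.Agent.Ribet.H576.ASRoot

/-!
# RIBET / W-ALGP, GLUE-p core: final theorem (wild analogue of `A2/H348/Final.lean`)

`exists_pow_eq_of_local_factorisation_as`:

`R` a noetherian domain with `R[X]` integrally closed (e.g. a DVR), `w ∈ R` prime, `F ⊇ R` a field
of characteristic `0`, `x ∈ F` transcendental over `R`, `F` finite over `Frac R (x)`;
`B_fin = chart R {x}`, `B_inf = chart R {x⁻¹}` the two charts of the normal `x`-line model (as in
`S18.H138`), `V ⊆ F` the semilocal Gauss ring, `lam ∈ R` with an Artin–Schreier datum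
`(1 + lam X)^p = 1 + lam^p Γ`, `Γ = X^p - X + w Δ` (e.g. `lam = ζ_p - 1`), and

* `ASGaussData w lam p u V` : `V` integrally closed in `F`, `w⁻¹ ∉ V`, `1 + w V ⊆ V^×`,
  `u ∈ 1 + lam^p w V`;
* `ASChartData w lam p u B V` for `B = B_fin, B_inf` : `B ⊆ V`, `B ∩ w V = w B` (reduced special
  fibre), and at every maximal ideal `𝔪 ∋ w` of `B` a **local factorisation** `u = ε h ^ p` with
  `ε ∈ 1 + lam^p w B_𝔪`, `h ∈ 1 + lam w V`;
* constants do not grow in the residue fields of the Kummer algebra `F[X]/(X ^ p - u)`.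

Then `u = y ^ p` with `y ∈ F`, `y ∈ 1 + lam w V`.
-/

set_option autoImplicit false
set_option linter.unusedSectionVars false
set_option linter.style.haveILetI false

open Polynomial

namespace Fermat.Agent.Ribet.H576

open Fermat.Agent.A2.H348
open Fermat.Agent.S18.H138 (chart baseField)

variable {R F : Type*} [CommRing R] [Field F] [Algebra R F]
  [IsNoetherianRing R] [IsIntegrallyClosed R[X]] [CharZero F]

/-- **GLUE-p (route S-p of the wall at `p`).** -/
theorem exists_pow_eq_of_local_factorisation_as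
    (hinjR : Function.Injective (algebraMap R F))
    {x : F} (hx : Transcendental R x) [FiniteDimensional (baseField R x) F]
    (w : R) (hw : Prime w) {p : ℕ} {lam : R} {Γ Δ : R[X]} (hD : ASDatum p lam w Γ Δ)
    {u : F} {V : Subalgebra R F}
    (hV : ASGaussData w lam p u V)
    (hfin : ASChartData w lam p u (chart R ({x} : Set F)) V)
    (hinf : ASChartData w lam p u (chart R ({x⁻¹} : Set F)) V)
    (hconst : ∀ 𝔫 : Ideal (AdjoinRoot (X ^ p - C u)), 𝔫.IsMaximal →
      ∀ y : AdjoinRoot (X ^ p - C u) ⧸ 𝔫, IsIntegral R y →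
        y ∈ Set.range (algebraMap R (AdjoinRoot (X ^ p - C u) ⧸ 𝔫))) :
    ∃ y : F, y ^ p = u ∧
      ∃ t ∈ V, y = 1 + algebraMap R F lam * (algebraMap R F w * t) := by
  have hm : p ≠ 0 := hD.pos.ne'
  have hx0 : x ≠ 0 := Fermat.Agent.S18.H138.ne_zero_of_transcendental hx
  haveI : Nontrivial (AdjoinRoot (X ^ p - C u)) :=
    AdjoinRoot.nontrivial _ (by rw [degree_X_pow_sub_C (Nat.pos_of_ne_zero hm)]; exact_mod_cast hm)
  have kb := kummerBasisAdjoinRoot hm u
  haveI := kb.finiteDimensional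
  refine exists_root_of_connected_as (Bmid := chart R ({x, x⁻¹} : Set F)) hD hV hfin hinf
    (Fermat.Agent.S18.H138.chart_mono (by simp)) (Fermat.Agent.S18.H138.chart_mono (by simp))
    ⟨x, Fermat.Agent.S18.H138.mem_chart_of_mem rfl⟩ hx0
    (Fermat.Agent.S18.H138.mem_chart_of_mem (by simp))
    (fun f hf => Fermat.Agent.S18.H138.exists_pow_mul_mem_chart hx0 hf) kb ?_
  intro 𝔫 h𝔫
  letI : Field (AdjoinRoot (X ^ p - C u) ⧸ 𝔫) := Ideal.Quotient.field 𝔫
  exact conn_of_const hinjR hx w hw (hconst 𝔫 h𝔫)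

end Fermat.Agent.Ribet.H576
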