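import Fermat.Agent.A2.H348.Root
import Fermat.Agent.Ribet.H576.ASCoord

/-!
# RIBET / W-ALGP, GLUE-p core, part 3: the Artin–Schreier idempotent on a two-chart model

Wild analogue (`m = p` = residue characteristic) of `A2/H348/Glue.lean`.  `u ∈ 1 + lam^p ϖ V`,
`z ^ p = u`, `W = (z - 1) / lam` satisfies `Γ(W) = (u - 1)/lam^p ∈ ϖ V`, i.e. `W^p - W ≡ 0` modulo
`ϖ`: the idempotent (modulo `ϖ`) of the sheet `W ≡ 0` is `E = 1 - W^(p-1)`.

See `exists_as_lifts` at the end of the file.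
-/

set_option autoImplicit false
set_option linter.unusedSectionVars false
set_option linter.style.haveILetI false

open Polynomial

namespace Fermat.Agent.Ribet.H576

open Fermat.Agent.A2.H348

variable {A F F' : Type*} [CommRing A] [Field F] [CommRing F'] [Nontrivial F'] [Algebra A F]
  [Algebra F F'] [Algebra A F'] [IsScalarTower A F F']

/-- The data attached to the semilocal Gauss ring `V`, wild case: `u ∈ 1 + lam^p ϖ V`. -/
structure ASGaussData (ϖ lam : A) (p : ℕ) (u : F) (V : Subalgebra A F) : Prop where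
  closed : ∀ f : F, IsIntegral V f → f ∈ V
  ϖ_inv_notMem : (algebraMap A F ϖ)⁻¹ ∉ V
  rad : ∀ t ∈ V, (1 + algebraMap A F ϖ * t)⁻¹ ∈ V
  lam_ne : algebraMap A F lam ≠ 0
  p_ne : (p : F) ≠ 0
  u_one : ∃ t ∈ V, u = 1 + algebraMap A F lam ^ p * (algebraMap A F ϖ * t)

/-- The data attached to one chart `B` of the model, wild case: local factorisations
`u = ε h ^ p`, `ε ∈ 1 + lam^p ϖ B_𝔪`, `h ∈ 1 + lam ϖ V`. -/
structure ASChartData (ϖ lam : A) (p : ℕ) (u : F) (B V : Subalgebra A F) : Prop where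
  le_V : B ≤ V
  closed : ∀ f : F, IsIntegral B f → f ∈ B
  /-- reducedness of the special fibre: `B ∩ ϖ V = ϖ B`. -/
  qep : ∀ b ∈ B, ∀ t ∈ V, b = algebraMap A F ϖ * t → t ∈ B
  loc : ∀ 𝔪 : Ideal B, 𝔪.IsMaximal → algebraMap A B ϖ ∈ 𝔪 →
    ∃ h : F, (∃ t ∈ V, h = 1 + algebraMap A F lam * (algebraMap A F ϖ * t)) ∧
      ∃ s a : B, s ∉ 𝔪 ∧ u * (s : F) =
        h ^ p * ((s : F) + algebraMap A F lam ^ p * (algebraMap A F ϖ * (a : F)))

section Gauss

variable {ϖ lam : A} {p : ℕ} {u : F} {V : Subalgebra A F} {Γ Δ : A[X]}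

theorem ASGaussData.ϖ_ne (hV : ASGaussData ϖ lam p u V) : algebraMap A F ϖ ≠ 0 := by
  intro h
  apply hV.ϖ_inv_notMem
  rw [h, inv_zero]
  exact V.zero_mem

theorem ASGaussData.one_add_ne (hV : ASGaussData ϖ lam p u V) {t : F} (ht : t ∈ V) :
    1 + algebraMap A F ϖ * t ≠ 0 := by
  intro h
  apply hV.ϖ_inv_notMem
  have h1 : algebraMap A F ϖ * (-t) = 1 := by linear_combination -h
  have h2 : (algebraMap A F ϖ)⁻¹ = -t := inv_eq_of_mul_eq_one_right h1
  rw [h2]
  exact V.neg_mem ht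

theorem ASGaussData.u_mem (hV : ASGaussData ϖ lam p u V) : u ∈ V := by
  obtain ⟨t, ht, rfl⟩ := hV.u_one
  exact V.add_mem V.one_mem (V.mul_mem (V.pow_mem (V.algebraMap_mem lam) p)
    (V.mul_mem (V.algebraMap_mem ϖ) ht))

theorem ASGaussData.u_eq' (hV : ASGaussData ϖ lam p u V) :
    ∃ t ∈ V, u = 1 + algebraMap A F ϖ * t := by
  obtain ⟨t, ht, rfl⟩ := hV.u_one
  exact ⟨algebraMap A F lam ^ p * t, V.mul_mem (V.pow_mem (V.algebraMap_mem lam) p) ht, by ring⟩

theorem ASGaussData.u_ne (hV : ASGaussData ϖ lam p u V) : u ≠ 0 := by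
  obtain ⟨t, ht, h⟩ := hV.u_eq'
  rw [h]
  exact hV.one_add_ne ht

theorem ASGaussData.u_inv_mem (hV : ASGaussData ϖ lam p u V) : u⁻¹ ∈ V := by
  obtain ⟨t, ht, h⟩ := hV.u_eq'
  rw [h]
  exact hV.rad t ht

/-- `c₁ = Γ.coeff 1 = -1 + ϖ δ` is a unit of `V`. -/
theorem ASGaussData.c₁_inv_mem (hV : ASGaussData ϖ lam p u V) (hD : ASDatum p lam ϖ Γ Δ) :
    (algebraMap A F (Γ.coeff 1))⁻¹ ∈ V := by
  have h : algebraMap A F (Γ.coeff 1) =
      -(1 + algebraMap A F ϖ * (-algebraMap A F (Δ.coeff 1))) := by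
    rw [hD.coeff_one, map_add, map_neg, map_one, map_mul]
    ring
  rw [h, inv_neg]
  exact V.neg_mem (hV.rad _ (V.neg_mem (V.algebraMap_mem _)))

/-- `(1 + lam ϖ t)^p = 1 + lam^p ϖ g` with `g ∈ V`. -/
theorem ASDatum.one_add_pow (hD : ASDatum p lam ϖ Γ Δ) (V : Subalgebra A F) {t : F} (ht : t ∈ V) :
    ∃ g ∈ V, (1 + algebraMap A F lam * (algebraMap A F ϖ * t)) ^ p =
      1 + algebraMap A F lam ^ p * (algebraMap A F ϖ * g) := by
  have h2 := hD.two_le
  have h := hD.aeval_pow_eq (algebraMap A F ϖ * t)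
  have h' := hD.aeval_eq_add (algebraMap A F ϖ * t)
  have hΔ : aeval (algebraMap A F ϖ * t) Δ ∈ V := by
    rw [aeval_eq_sum_range]
    refine V.sum_mem fun n _ => ?_
    rw [Algebra.smul_def]
    exact V.mul_mem (V.algebraMap_mem _) (V.pow_mem (V.mul_mem (V.algebraMap_mem _) ht) n)
  refine ⟨algebraMap A F ϖ ^ (p - 1) * t ^ p - t + aeval (algebraMap A F ϖ * t) Δ,
    V.add_mem (V.sub_mem (V.mul_mem (V.pow_mem (V.algebraMap_mem _) _) (V.pow_mem ht _)) ht) hΔ,
    ?_⟩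
  rw [h, h']
  have hp : (algebraMap A F ϖ * t) ^ p =
      algebraMap A F ϖ * (algebraMap A F ϖ ^ (p - 1) * t ^ p) := by
    rw [mul_pow, ← mul_assoc, ← pow_succ', Nat.sub_add_cancel (by omega)]
  rw [hp]
  ring

end Gauss

section Chart

variable {ϖ lam : A} {p : ℕ} {u : F} {B V : Subalgebra A F} {Γ Δ : A[X]}

/-- `c₁` is a unit of `B_𝔪` for `ϖ ∈ 𝔪`. -/
theorem ASDatum.c₁_inv_mem_locAt (hD : ASDatum p lam ϖ Γ Δ) (𝔪 : Ideal B) [𝔪.IsPrime]
    (hϖ : algebraMap A B ϖ ∈ 𝔪) : (algebraMap A F (Γ.coeff 1))⁻¹ ∈ locAt B 𝔪 := by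
  have h : algebraMap A F (Γ.coeff 1) =
      -(1 + ((algebraMap A B ϖ : B) : F) * (-algebraMap A F (Δ.coeff 1))) := by
    rw [hD.coeff_one, map_add, map_neg, map_one, map_mul]
    show _ = -(1 + algebraMap A F ϖ * _)
    ring
  rw [h, inv_neg]
  exact (locAt B 𝔪).neg_mem (one_add_mul_inv_mem_locAt 𝔪 hϖ
    ((locAt B 𝔪).neg_mem ((locAt B 𝔪).algebraMap_mem _)))

/-- local package at a closed point of the special fibre. -/
theorem ASChartData.exists_local (hD : ASDatum p lam ϖ Γ Δ) (hV : ASGaussData ϖ lam p u V)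
    (hB : ASChartData ϖ lam p u B V)
    {z : F'} (kb : KummerBasis p u z) (𝔪 : Ideal B) [h𝔪 : 𝔪.IsMaximal]
    (hϖ : algebraMap A B ϖ ∈ 𝔪) :
    ∃ (h t ε τ : F) (ζ : F') (_ : KummerBasis p ε ζ),
      t ∈ V ∧ h = 1 + algebraMap A F lam * (algebraMap A F ϖ * t) ∧
      z = ζ * algebraMap F F' h ∧
      ε = 1 + algebraMap A F lam ^ p * τ ∧ ε ≠ 0 ∧
      τ ∈ locAt B 𝔪 ∧ ε⁻¹ ∈ locAt B 𝔪 ∧ τ ∈ V ∧ ε⁻¹ ∈ V := by
  obtain ⟨h, ⟨t, ht, hh⟩, s, a, hs, hus⟩ := hB.loc 𝔪 h𝔪 hϖ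
  obtain ⟨t₀, ht₀, hu⟩ := hV.u_one
  obtain ⟨g, hg, hhp⟩ := hD.one_add_pow V ht
  rw [← hh] at hhp
  have hlam := hV.lam_ne
  have hlamp : algebraMap A F lam ^ p ≠ 0 := pow_ne_zero _ hlam
  have hh0 : h ≠ 0 := by
    have : h = 1 + algebraMap A F ϖ * (algebraMap A F lam * t) := by rw [hh]; ring
    rw [this]; exact hV.one_add_ne (V.mul_mem (V.algebraMap_mem _) ht)
  have hs0 : (s : F) ≠ 0 := coe_ne_zero_of_notMem 𝔪 hs
  have hhm0 : h ^ p ≠ 0 := pow_ne_zero _ hh0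
  have hhV : h ∈ V := by
    rw [hh]
    exact V.add_mem V.one_mem (V.mul_mem (V.algebraMap_mem _) (V.mul_mem (V.algebraMap_mem ϖ) ht))
  have hhpinvV : (h ^ p)⁻¹ ∈ V := by
    have : h ^ p = 1 + algebraMap A F ϖ * (algebraMap A F lam ^ p * g) := by rw [hhp]; ring
    rw [this]
    exact hV.rad _ (V.mul_mem (V.pow_mem (V.algebraMap_mem _) _) hg)
  set ε : F := u * (h ^ p)⁻¹ with hε
  set τ : F := algebraMap A F ϖ * ((t₀ - g) * (h ^ p)⁻¹) with hτ
  have hετ : ε = 1 + algebraMap A F lam ^ p * τ := by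
    rw [hε, hτ, hu]
    have e : (h ^ p)⁻¹ * h ^ p = 1 := inv_mul_cancel₀ hhm0
    linear_combination e - (h ^ p)⁻¹ * hhp
  have hεs : (s : F) * ε = (s : F) + algebraMap A F lam ^ p * (algebraMap A F ϖ * (a : F)) := by
    rw [hε, ← mul_assoc, mul_comm (s : F) u, hus]
    field_simp
  have hτs : (s : F) * τ = algebraMap A F ϖ * (a : F) := by
    apply mul_left_cancel₀ hlamp
    have := hεs
    rw [hετ] at this
    linear_combination this
  have hτO : τ ∈ locAt B 𝔪 := by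
    refine ⟨s, hs, ?_⟩
    rw [hτs]
    exact B.mul_mem (B.algebraMap_mem ϖ) a.2
  have hτV : τ ∈ V :=
    V.mul_mem (V.algebraMap_mem ϖ) (V.mul_mem (V.sub_mem ht₀ hg) hhpinvV)
  have hεinvO : ε⁻¹ ∈ locAt B 𝔪 := by
    have h1 : ε = 1 + ((algebraMap A B ϖ : B) : F) *
        (algebraMap A F lam ^ p * ((a : F) * (s : F)⁻¹)) := by
      have : ε = ((s : F) * ε) * (s : F)⁻¹ := by field_simp
      rw [this, hεs]
      show _ = 1 + algebraMap A F ϖ * _
      field_simp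
    rw [h1]
    refine one_add_mul_inv_mem_locAt 𝔪 hϖ ?_
    exact (locAt B 𝔪).mul_mem ((locAt B 𝔪).pow_mem ((locAt B 𝔪).algebraMap_mem _) _)
      ((locAt B 𝔪).mul_mem (le_locAt 𝔪 a.2) (inv_mem_locAt 𝔪 hs))
  have hεinvV : ε⁻¹ ∈ V := by
    rw [hε, mul_inv, inv_inv]
    exact V.mul_mem hV.u_inv_mem (V.pow_mem hhV p)
  have hε0 : ε ≠ 0 := mul_ne_zero hV.u_ne (inv_ne_zero hhm0)
  refine ⟨h, t, ε, τ, z * algebraMap F F' h⁻¹, kb.scale h hh0, ht, hh, ?_, hετ, hε0, hτO, hεinvO,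
    hτV, hεinvV⟩
  rw [mul_assoc, ← map_mul, inv_mul_cancel₀ hh0, map_one, mul_one]

/-- **Unmixedness** of `ϖ` on the integral closure of a chart in the Kummer algebra. -/
theorem ASChartData.unmixed (hD : ASDatum p lam ϖ Γ Δ) (hV : ASGaussData ϖ lam p u V)
    (hB : ASChartData ϖ lam p u B V)
    {z : F'} (kb : KummerBasis p u z) {c c' : F'} (hc : IsIntegral B c) (hc' : IsIntegral V c')
    (hcc : c = algebraMap A F' ϖ * c') : IsIntegral B c' := by
  have key : c' ∈ (integralClosure B F').toSubmodule := by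
    refine mem_of_forall_maximal B _ c' fun 𝔪 h𝔪 => ?_
    by_cases hϖ : algebraMap A B ϖ ∈ 𝔪
    · obtain ⟨h, t, ε, τ, ζ, kb', -, -, -, hετ, hε0, hτO, hεinvO, hτV, hεinvV⟩ :=
        hB.exists_local hD hV kb 𝔪 hϖ
      have hcO : IsIntegral (locAt B 𝔪) c := isIntegral_of_le (le_locAt 𝔪) hc
      have hci : ∀ n, (asPoly kb' lam c).coeff n ∈ locAt B 𝔪 := fun n =>
        hD.asPoly_coeff_mem_of_isIntegral kb' _ (locAt_integrallyClosed hB.closed 𝔪) hV.lam_ne
          hV.p_ne hετ hτO hε0 hεinvO (hD.c₁_inv_mem_locAt 𝔪 hϖ) hcO n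
      have hc'i : ∀ n, (asPoly kb' lam c').coeff n ∈ V := fun n =>
        hD.asPoly_coeff_mem_of_isIntegral kb' _ hV.closed hV.lam_ne
          hV.p_ne hετ hτV hε0 hεinvV (hV.c₁_inv_mem hD) hc' n
      have hrel : ∀ n, (asPoly kb' lam c).coeff n =
          algebraMap A F ϖ * (asPoly kb' lam c').coeff n := by
        intro n
        rw [hcc, algebraMap_eq_comp F, asPoly_mul, coeff_C_mul]
      have hc'O : ∀ n, (asPoly kb' lam c').coeff n ∈ locAt B 𝔪 := by
        intro n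
        obtain ⟨s, hs, hsc⟩ := hci n
        refine ⟨s, hs, ?_⟩
        refine hB.qep _ hsc ((s : F) * (asPoly kb' lam c').coeff n)
          (V.mul_mem (hB.le_V s.2) (hc'i n)) ?_
        rw [hrel n]; ring
      have hc'int : IsIntegral (locAt B 𝔪) c' :=
        hD.isIntegral_of_asPoly_coeff_mem kb' _ hV.lam_ne hετ hτO hc'O
      obtain ⟨s, hs, hsint⟩ := exists_smul_isIntegral_of_locAt 𝔪 c' hc'int
      refine ⟨s, hs, ?_⟩
      rw [smul_eq_algebraMap_mul]
      exact hsint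
    · refine ⟨algebraMap A B ϖ, hϖ, ?_⟩
      rw [smul_eq_algebraMap_mul]
      have : algebraMap F F' ((algebraMap A B ϖ : B) : F) * c' = c := by
        rw [hcc]
        congr 1
        exact (algebraMap_eq_comp F ϖ).symm
      rw [this]
      exact hc
  exact key

end Chart

section Idem

variable {ϖ lam : A} {p : ℕ} {u : F} {B V : Subalgebra A F} {Γ Δ : A[X]}

variable (F) in
/-- The Artin–Schreier idempotent `1 - W^(p-1)`, `W = (z - 1) / lam` (the sheet `W ≡ 0`). -/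
noncomputable def asE (lam : A) (p : ℕ) (z : F') : F' := 1 - asW F lam z ^ (p - 1)

/-- polynomial expressions with coefficients in `A` of integral elements are integral. -/
theorem isIntegral_aeval_base (O : Subalgebra A F) {W : F'} (hW : IsIntegral O W) (P : A[X]) :
    IsIntegral O (aeval W P) := by
  rw [aeval_eq_sum_range]
  refine IsIntegral.sum _ fun n _ => ?_
  rw [Algebra.smul_def, algebraMap_eq_comp F]
  exact (isIntegral_algebraMap_of_mem' O (O.algebraMap_mem _)).mul (hW.pow n)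

theorem isIntegral_algebraMap_base (O : Subalgebra A F) (a : A) :
    IsIntegral O (algebraMap A F' a) := by
  rw [algebraMap_eq_comp F]
  exact isIntegral_algebraMap_of_mem' O (O.algebraMap_mem _)

theorem ASGaussData.isIntegral_asW (hV : ASGaussData ϖ lam p u V) (hD : ASDatum p lam ϖ Γ Δ)
    {z : F'} (kb : KummerBasis p u z) : IsIntegral V (asW F lam z) := by
  obtain ⟨t₀, ht₀, hu⟩ := hV.u_one
  exact hD.isIntegral_asW kb V hV.lam_ne hu (V.mul_mem (V.algebraMap_mem ϖ) ht₀)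

theorem ASGaussData.isIntegral_asE (hV : ASGaussData ϖ lam p u V) (hD : ASDatum p lam ϖ Γ Δ)
    {z : F'} (kb : KummerBasis p u z) : IsIntegral V (asE F lam p z) :=
  isIntegral_one.sub ((hV.isIntegral_asW hD kb).pow _)

/-- `W^p - W ∈ ϖ · (V-integral)`. -/
theorem ASGaussData.asW_pow_sub (hV : ASGaussData ϖ lam p u V) (hD : ASDatum p lam ϖ Γ Δ)
    {z : F'} (kb : KummerBasis p u z) :
    ∃ q : F', IsIntegral V q ∧ asW F lam z ^ p - asW F lam z = algebraMap A F' ϖ * q := by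
  obtain ⟨t₀, ht₀, hu⟩ := hV.u_one
  have hW := hV.isIntegral_asW hD kb
  have hΓ : aeval (asW F lam z) Γ = algebraMap F F' (algebraMap A F ϖ * t₀) :=
    hD.aeval_asW hV.lam_ne (by rw [kb.pow_eq, hu])
  have hadd := hD.aeval_eq_add (asW F lam z)
  rw [hΓ, map_mul, ← algebraMap_eq_comp F] at hadd
  refine ⟨algebraMap F F' t₀ - aeval (asW F lam z) Δ,
    (isIntegral_algebraMap_of_mem' V ht₀).sub (isIntegral_aeval_base V hW Δ), ?_⟩
  linear_combination -hadd

/-- the Artin–Schreier idempotent is idempotent modulo `ϖ`. -/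
theorem ASGaussData.asE_idem (hV : ASGaussData ϖ lam p u V) (hD : ASDatum p lam ϖ Γ Δ)
    {z : F'} (kb : KummerBasis p u z) :
    ∃ q : F', IsIntegral V q ∧
      asE F lam p z ^ 2 - asE F lam p z = algebraMap A F' ϖ * q := by
  obtain ⟨q, hq, hrel⟩ := hV.asW_pow_sub hD kb
  have hW := hV.isIntegral_asW hD kb
  have h2 := hD.two_le
  refine ⟨asW F lam z ^ (p - 2) * q, (hW.pow _).mul hq, ?_⟩
  have e1 : asW F lam z ^ (p - 1) = asW F lam z ^ (p - 2) * asW F lam z := by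
    rw [← pow_succ]; congr 1; omega
  have e2 : asW F lam z ^ p = asW F lam z ^ (p - 2) * asW F lam z ^ 2 := by
    rw [← pow_add]; congr 1; omega
  rw [e2] at hrel
  unfold asE
  rw [e1]
  linear_combination asW F lam z ^ (p - 2) * hrel

omit [Nontrivial F'] in
/-- change of the coordinate `W` under `z = ζ h`, `h = 1 + lam ϖ t`. -/
theorem asW_mul (hlam : algebraMap A F lam ≠ 0) {z ζ : F'} {h t : F}
    (hz : z = ζ * algebraMap F F' h)
    (hh : h = 1 + algebraMap A F lam * (algebraMap A F ϖ * t)) :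
    asW F lam z = asW F lam ζ + algebraMap A F' ϖ * (algebraMap F F' t * ζ) := by
  unfold asW
  have hu : algebraMap F F' (algebraMap A F lam)⁻¹ * algebraMap F F' (algebraMap A F lam) = 1 := by
    rw [← map_mul, inv_mul_cancel₀ hlam, map_one]
  rw [hz, hh, IsScalarTower.algebraMap_apply A F F' ϖ]
  simp only [map_add, map_one, map_mul]
  linear_combination (algebraMap F F' (algebraMap A F ϖ) * algebraMap F F' t * ζ) * hu

omit [Nontrivial F'] in
/-- change of the idempotent under a congruence of coordinates. -/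
theorem one_sub_pow_sub (W₁ W₂ c d : F') (n : ℕ) (h : W₁ = W₂ + c * d) :
    (1 - W₁ ^ n) = (1 - W₂ ^ n) +
      c * (-(d * ∑ i ∈ Finset.range n, W₁ ^ i * W₂ ^ (n - 1 - i))) := by
  have := geom_sum₂_mul W₁ W₂ n
  have h' : W₁ - W₂ = c * d := by rw [h]; ring
  rw [h'] at this
  linear_combination this

/-- **Gluing**: the Artin–Schreier idempotent is congruent modulo `ϖ` to an element integral over
the chart `B`. -/
theorem ASChartData.exists_lift (hD : ASDatum p lam ϖ Γ Δ) (hV : ASGaussData ϖ lam p u V)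
    (hB : ASChartData ϖ lam p u B V) {z : F'} (kb : KummerBasis p u z) :
    ∃ e c : F', IsIntegral B e ∧ IsIntegral V c ∧
      asE F lam p z = e + algebraMap A F' ϖ * c := by
  let M : Submodule B F' :=
    { carrier := {y | ∃ y₁ y₂ : F', IsIntegral B y₁ ∧ IsIntegral V y₂ ∧
        y = y₁ + algebraMap A F' ϖ * y₂}
      add_mem' := by
        rintro a b ⟨a₁, a₂, ha₁, ha₂, rfl⟩ ⟨b₁, b₂, hb₁, hb₂, rfl⟩
        exact ⟨a₁ + b₁, a₂ + b₂, ha₁.add hb₁, ha₂.add hb₂, by ring⟩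
      zero_mem' := ⟨0, 0, isIntegral_zero, isIntegral_zero, by simp⟩
      smul_mem' := by
        rintro b y ⟨y₁, y₂, hy₁, hy₂, rfl⟩
        refine ⟨algebraMap F F' (b : F) * y₁, algebraMap F F' (b : F) * y₂,
          (isIntegral_algebraMap_of_mem' B b.2).mul hy₁,
          (isIntegral_algebraMap_of_mem' V (hB.le_V b.2)).mul hy₂, ?_⟩
        rw [smul_eq_algebraMap_mul]
        ring }
  have key : asE F lam p z ∈ M := by
    refine mem_of_forall_maximal B M _ fun 𝔪 h𝔪 => ?_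
    by_cases hϖ : algebraMap A B ϖ ∈ 𝔪
    · obtain ⟨h, t, ε, τ, ζ, kb', ht, hh, hz, hετ, hε0, hτO, hεinvO, hτV, hεinvV⟩ :=
        hB.exists_local hD hV kb 𝔪 hϖ
      have hεV : ε ∈ V := by
        rw [hετ]
        exact V.add_mem V.one_mem (V.mul_mem (V.pow_mem (V.algebraMap_mem _) _) hτV)
      have hζV : IsIntegral V ζ := kb'.isIntegral_zeta _ hεV
      have hWζO : IsIntegral (locAt B 𝔪) (asW F lam ζ) :=
        hD.isIntegral_asW kb' _ hV.lam_ne hετ hτO
      have hWζV : IsIntegral V (asW F lam ζ) := hD.isIntegral_asW kb' _ hV.lam_ne hετ hτV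
      have hWzV : IsIntegral V (asW F lam z) := hV.isIntegral_asW hD kb
      have heO : IsIntegral (locAt B 𝔪) (asE F lam p ζ) := isIntegral_one.sub (hWζO.pow _)
      obtain ⟨s, hs, hsint⟩ := exists_smul_isIntegral_of_locAt 𝔪 _ heO
      have hW := asW_mul (ϖ := ϖ) hV.lam_ne hz hh
      set y₂ : F' := -((algebraMap F F' t * ζ) * ∑ i ∈ Finset.range (p - 1),
        asW F lam z ^ i * asW F lam ζ ^ (p - 1 - 1 - i)) with hy₂
      have hy₂int : IsIntegral V y₂ :=
        (((isIntegral_algebraMap_of_mem' V ht).mul hζV).mul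
          (IsIntegral.sum _ fun i _ => (hWzV.pow _).mul (hWζV.pow _))).neg
      have hdiff : asE F lam p z = asE F lam p ζ + algebraMap A F' ϖ * y₂ :=
        one_sub_pow_sub _ _ _ _ (p - 1) hW
      refine ⟨s, hs, ?_⟩
      refine ⟨algebraMap F F' (s : F) * asE F lam p ζ, algebraMap F F' (s : F) * y₂, hsint,
        (isIntegral_algebraMap_of_mem' V (hB.le_V s.2)).mul hy₂int, ?_⟩
      rw [smul_eq_algebraMap_mul, hdiff]
      ring
    · refine ⟨algebraMap A B ϖ, hϖ, ?_⟩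
      refine ⟨0, asE F lam p z, isIntegral_zero, hV.isIntegral_asE hD kb, ?_⟩
      rw [smul_eq_algebraMap_mul, zero_add]
      congr 1
      exact (algebraMap_eq_comp F ϖ).symm
  obtain ⟨e, c, he, hc, hec⟩ := key
  exact ⟨e, c, he, hc, hec⟩

end Idem

section Main

variable {ϖ lam : A} {p : ℕ} {u : F} {Bfin Binf Bmid V : Subalgebra A F} {Γ Δ : A[X]}

/-- unmixedness on the middle chart `Bmid = Bfin[1/x]`. -/
theorem as_unmixed_mid (hD : ASDatum p lam ϖ Γ Δ) (hV : ASGaussData ϖ lam p u V)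
    (hfin : ASChartData ϖ lam p u Bfin V)
    (hfm : Bfin ≤ Bmid) (x : Bfin) (hx0 : (x : F) ≠ 0) (hxinv : ((x : F))⁻¹ ∈ Bmid)
    (hloc : ∀ f ∈ Bmid, ∃ K : ℕ, (x : F) ^ K * f ∈ Bfin)
    {z : F'} (kb : KummerBasis p u z) {c c' : F'} (hc : IsIntegral Bmid c)
    (hc' : IsIntegral V c') (hcc : c = algebraMap A F' ϖ * c') : IsIntegral Bmid c' := by
  obtain ⟨s, ⟨K, hK⟩, hs⟩ := exists_smul_isIntegral_of_subLoc Bfin Bmid hfm (Submonoid.powers x)
    (by
      rintro s ⟨K, rfl⟩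
      simpa using pow_ne_zero K hx0)
    (by
      intro f hf
      obtain ⟨K, hK⟩ := hloc f hf
      exact ⟨x ^ K, ⟨K, rfl⟩, by simpa using hK⟩)
    (by
      rintro s ⟨K, rfl⟩
      have : (((x ^ K : Bfin) : F))⁻¹ = ((x : F)⁻¹) ^ K := by simp
      rw [this]
      exact Bmid.pow_mem hxinv K) c hc
  have hsF : (s : F) = (x : F) ^ K := by rw [← hK]; simp
  have hs0 : (s : F) ≠ 0 := by rw [hsF]; exact pow_ne_zero K hx0
  have h1 : IsIntegral Bfin (algebraMap F F' (s : F) * c') := by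
    refine hfin.unmixed hD hV kb hs ((isIntegral_algebraMap_of_mem' V (hfin.le_V s.2)).mul hc') ?_
    rw [hcc]; ring
  have h2 : IsIntegral Bmid (algebraMap F F' (s : F) * c') := isIntegral_of_le hfm h1
  have hsinv : ((s : F))⁻¹ ∈ Bmid := by
    rw [hsF, ← inv_pow]; exact Bmid.pow_mem hxinv K
  have h3 : c' = algebraMap F F' ((s : F)⁻¹) * (algebraMap F F' (s : F) * c') := by
    rw [← mul_assoc, ← map_mul, inv_mul_cancel₀ hs0, map_one, one_mul]
  rw [h3]
  exact (isIntegral_algebraMap_of_mem' Bmid hsinv).mul h2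

/-- **GLUE-p, lifting form.**  On a two-chart model `(Bfin, Binf, Bmid = Bfin[1/x])` with
semilocal Gauss ring `V` (reduced special fibre), let `u ∈ 1 + lam^p ϖ V` admit at every closed
point `𝔪` of the special fibre of each chart a factorisation `u = ε h ^ p` with
`ε ∈ 1 + lam^p ϖ B_𝔪`, `h ∈ 1 + lam ϖ V`.  Then in the Kummer algebra `F' = F[z]/(z ^ p - u)` the
element `E = 1 - W^(p-1)`, `W = (z - 1)/lam`, has lifts `e₁`, `e₂` (modulo `ϖ` times `V`-integral
elements) which are integral over the two charts, idempotent modulo `ϖ` in the integral closure of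
each chart, and congruent modulo `ϖ` on the overlap. -/
theorem exists_as_lifts (hD : ASDatum p lam ϖ Γ Δ) (hV : ASGaussData ϖ lam p u V)
    (hfin : ASChartData ϖ lam p u Bfin V) (hinf : ASChartData ϖ lam p u Binf V)
    (hfm : Bfin ≤ Bmid) (him : Binf ≤ Bmid)
    (x : Bfin) (hx0 : (x : F) ≠ 0) (hxinv : ((x : F))⁻¹ ∈ Bmid)
    (hloc : ∀ f ∈ Bmid, ∃ K : ℕ, (x : F) ^ K * f ∈ Bfin)
    {z : F'} (kb : KummerBasis p u z) :
    ∃ e₁ e₂ c₁ : F', IsIntegral Bfin e₁ ∧ IsIntegral Binf e₂ ∧ IsIntegral V c₁ ∧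
      asE F lam p z = e₁ + algebraMap A F' ϖ * c₁ ∧
      (∃ t : F', IsIntegral Bfin t ∧ e₁ ^ 2 - e₁ = algebraMap A F' ϖ * t) ∧
      (∃ t : F', IsIntegral Binf t ∧ e₂ ^ 2 - e₂ = algebraMap A F' ϖ * t) ∧
      (∃ t : F', IsIntegral Bmid t ∧ e₁ - e₂ = algebraMap A F' ϖ * t) := by
  obtain ⟨e₁, c₁, he₁, hc₁, h1⟩ := hfin.exists_lift hD hV kb
  obtain ⟨e₂, c₂, he₂, hc₂, h2⟩ := hinf.exists_lift hD hV kb
  obtain ⟨q, hq, hidem⟩ := hV.asE_idem hD kb
  have hE := hV.isIntegral_asE hD kb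
  have hϖV : IsIntegral V (algebraMap A F' ϖ) := isIntegral_algebraMap_base V ϖ
  set E : F' := asE F lam p z with hEdef
  -- idempotency on a chart
  have idem : ∀ (B : Subalgebra A F) (hB : ASChartData ϖ lam p u B V) (e c : F'),
      IsIntegral B e → IsIntegral V c → E = e + algebraMap A F' ϖ * c →
      ∃ t : F', IsIntegral B t ∧ e ^ 2 - e = algebraMap A F' ϖ * t := by
    intro B hB e c he hc hEe
    have hrel : e ^ 2 - e = algebraMap A F' ϖ *
        (q - 2 * c * E + algebraMap A F' ϖ * c ^ 2 + c) := by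
      have he' : e = E - algebraMap A F' ϖ * c := by rw [hEe]; ring
      have : e ^ 2 - e = (E ^ 2 - E) + algebraMap A F' ϖ *
          (- 2 * c * E + algebraMap A F' ϖ * c ^ 2 + c) := by
        rw [he']; ring
      rw [this, hidem]; ring
    have hint : IsIntegral V (q - 2 * c * E + algebraMap A F' ϖ * c ^ 2 + c) := by
      refine IsIntegral.add (IsIntegral.add (IsIntegral.sub hq ?_) (hϖV.mul (hc.pow 2))) hc
      have h2int : IsIntegral V (2 : F') := by
        have : (2 : F') = algebraMap F F' (2 : F) := (map_ofNat (algebraMap F F') 2).symm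
        rw [this]
        exact isIntegral_algebraMap_of_mem' V (by
          have : (2 : F) = 1 + 1 := by norm_num
          rw [this]; exact V.add_mem V.one_mem V.one_mem)
      exact (h2int.mul hc).mul hE
    exact ⟨_, hB.unmixed hD hV kb ((he.pow 2).sub he) hint hrel, hrel⟩
  refine ⟨e₁, e₂, c₁, he₁, he₂, hc₁, h1, idem Bfin hfin e₁ c₁ he₁ hc₁ h1,
    idem Binf hinf e₂ c₂ he₂ hc₂ h2, ?_⟩
  -- compatibility
  have hrel : e₁ - e₂ = algebraMap A F' ϖ * (c₂ - c₁) := by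
    have e1 : e₁ = E - algebraMap A F' ϖ * c₁ := by rw [h1]; ring
    have e2 : e₂ = E - algebraMap A F' ϖ * c₂ := by rw [h2]; ring
    rw [e1, e2]; ring
  refine ⟨c₂ - c₁, ?_, hrel⟩
  exact as_unmixed_mid hD hV hfin hfm x hx0 hxinv hloc kb
    ((isIntegral_of_le hfm he₁).sub (isIntegral_of_le him he₂)) (hc₂.sub hc₁) hrel

end Main

end Fermat.Agent.Ribet.H576
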