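import Fermat.Agent.Ribet.H495.GluePSpec
import Fermat.Agent.Ribet.H576.ASFinal
import Fermat.Agent.Ribet.H576.ASCyclo

/-!
# RIBET / W-ALGP, leaf GLUE-p core: `GlueCorePStatement` (helper495's frozen Prop), VERBATIM

`glueCoreP : H495.AlgP.GlueCorePStatement`, from
`exists_pow_eq_of_local_factorisation_as` (`ASFinal.lean`) and `exists_asDatum` (`ASCyclo.lean`).
-/

set_option autoImplicit false
set_option linter.unusedSectionVars false
set_option linter.style.haveILetI false
set_option linter.unusedVariables false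

open Polynomial

namespace Fermat.Agent.Ribet.H576

open Fermat.Agent.A2.H348
open Fermat.Agent.S18.H138 (chart baseField)

/-- in a local domain with residue characteristic `p`, a `p`-th root of unity is `≡ 1` modulo the
maximal ideal. -/
theorem sub_one_mem_maximalIdeal {R : Type*} [CommRing R] [IsLocalRing R] {p : ℕ} (hp : p.Prime)
    (hpR : (p : R) ∈ IsLocalRing.maximalIdeal R) {ζ : R} (hζ : ζ ^ p = 1) :
    ζ - 1 ∈ IsLocalRing.maximalIdeal R := by
  haveI : Fact p.Prime := ⟨hp⟩
  haveI : CharP (IsLocalRing.ResidueField R) p := (CharP.charP_iff_prime_eq_zero hp).2 (by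
    rw [← map_natCast (IsLocalRing.residue R)]
    exact (IsLocalRing.residue_eq_zero_iff _).2 hpR)
  have h1 : frobenius (IsLocalRing.ResidueField R) p (IsLocalRing.residue R ζ) =
      frobenius (IsLocalRing.ResidueField R) p 1 := by
    rw [frobenius_def, frobenius_def, ← map_pow, hζ, map_one, one_pow]
  have h2 := frobenius_inj (IsLocalRing.ResidueField R) p h1
  rw [← IsLocalRing.residue_eq_zero_iff, map_sub, map_one, h2, sub_self]

/-- the wild chart data of `H495` give `ASChartData`. -/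
theorem asChartData_of_wild {R F : Type*} [CommRing R] [Field F] [Algebra R F]
    {w : R} {p : ℕ} {lam : R} {u : F} {B V : Subalgebra R F}
    (h : Fermat.Agent.Ribet.H495.AlgP.WildChartData w p lam u B V) :
    ASChartData w lam p u B V where
  le_V := h.le_V
  closed := h.closed
  qep := h.qep
  loc := by
    intro 𝔪 h𝔪 hw𝔪
    obtain ⟨hh, ⟨t, ht, hht⟩, s, a, hs, hus⟩ := h.loc 𝔪 h𝔪 hw𝔪
    refine ⟨hh, ⟨t, ht, ?_⟩, s, a, hs, ?_⟩
    · rw [hht, map_mul, mul_assoc]
    · rw [hus, map_mul, map_pow, mul_assoc]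

/-- **GLUE-p core**, helper495's frozen statement, verbatim. -/
theorem glueCoreP : Fermat.Agent.Ribet.H495.AlgP.GlueCorePStatement := by
  intro R F _ _ _ _ _ _ _ _ hinjR x hx hfd w hw p hp hp2 hpR ζ hζ V hclosed hwinv hrad u hu
    hfin hinf hconst
  have hmax : IsLocalRing.maximalIdeal R = Ideal.span {w} := hw.irreducible.maximalIdeal_eq
  have hwp : w ∣ (p : R) := by
    rw [hmax] at hpR
    exact Ideal.mem_span_singleton.1 hpR
  have hwζ : w ∣ ζ - 1 := by
    have := sub_one_mem_maximalIdeal hp hpR hζ.pow_eq_one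
    rw [hmax] at this
    exact Ideal.mem_span_singleton.1 this
  obtain ⟨Γ, Δ, hD⟩ := exists_asDatum hp hζ hw hwp hwζ
  haveI := hfd
  have hlam0 : ζ - 1 ≠ 0 := by
    intro h
    have h1 : ζ = 1 := by linear_combination h
    exact hp.one_lt.ne' (hζ.unique (h1 ▸ IsPrimitiveRoot.one))
  have hlam : algebraMap R F (ζ - 1) ≠ 0 := fun h0 =>
    hlam0 (hinjR (by rw [h0, map_zero]))
  have hV : ASGaussData w (ζ - 1) p u V := by
    refine ⟨hclosed, hwinv, hrad, hlam, Nat.cast_ne_zero.2 hp.ne_zero, ?_⟩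
    obtain ⟨t, ht, hut⟩ := hu
    exact ⟨t, ht, by rw [hut, map_mul, map_pow, mul_assoc]⟩
  obtain ⟨y, hy, -⟩ := exists_pow_eq_of_local_factorisation_as hinjR hx w hw hD hV
    (asChartData_of_wild hfin) (asChartData_of_wild hinf) hconst
  exact ⟨y, hy⟩

end Fermat.Agent.Ribet.H576
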